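import Mathlib
import Fermat.Agent.CFT.HasseNorm

/-!
# Units are norms in unramified Kummer extensions (all residue characteristics)
-/

set_option autoImplicit false
set_option linter.unusedSectionVars false

open NumberField IsDedekindDomain Module Polynomial
open Fermat.Agent.CFT Fermat.Agent.CFT.W Fermat.Agent.CFT.Embed Fermat.Agent.CFT.NormGrp

namespace Fermat.Agent.LT.D

variable {E : Type*} [Field E] [NumberField E] {F : Type*} [Field F] [NumberField F]
  [Algebra E F] {p : ℕ}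

theorem norm_aut_apply {q : ℕ} [Fact q.Prime] {L : IntermediateField ℚ_[q] (PadicAlgCl q)}
    {M : IntermediateField L (PadicAlgCl q)} (g : M →ₐ[L] PadicAlgCl q) (y : M) :
    ‖g y‖ = ‖(y : PadicAlgCl q)‖ := by
  have h := g.restrictScalars ℚ_[q]
  change spectralNorm ℚ_[q] (PadicAlgCl q) (g y) = spectralNorm ℚ_[q] (PadicAlgCl q) (y : PadicAlgCl q)
  unfold spectralNorm
  have h1 : minpoly ℚ_[q] (g y) = minpoly ℚ_[q] y :=
    minpoly.algHom_eq (g.restrictScalars ℚ_[q]) g.injective y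
  have h2 : minpoly ℚ_[q] (y : PadicAlgCl q) = minpoly ℚ_[q] y :=
    minpoly.algHom_eq (M.val.restrictScalars ℚ_[q]) M.val.injective y
  rw [h1, h2]

/-- In the nonsplit unramified case all local norms have norm in `‖K_v‖ ^ p`. -/
theorem norm_mem_pow_of_mem_N (e : LocEmb E) (hp : p.Prime) {ζ a : E} {α : F} {σ : F ≃ₐ[E] F}
    (hD : Kummer.Data E F p ζ a α σ) (hζ : IsPrimitiveRoot ζ p)
    (hns : ∀ c : e.L, c ^ p ≠ e.toL a)
    (hur : ∀ w : HeightOneSpectrum (𝓞 F), SUH.below E w = e.v →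
      e.v.asIdeal.ramificationIdx' w.asIdeal = 1)
    {x : (e.L)ˣ} (hx : x ∈ e.N p a) : ∃ z : E, z ≠ 0 ∧ ‖(x : e.L)‖ = ‖e.toL z‖ ^ p := by
  obtain ⟨ψ, hψ⟩ := exists_extension (F := F) e.q e.φ
  set β : PadicAlgCl e.q := ψ α with hβ
  have hβp : β ^ p = algebraMap e.L (PadicAlgCl e.q) (e.toL a) := by
    rw [hβ, ← map_pow, hD.pow_eq, hψ]; rfl
  have hmin := Kummer.minpoly_eq hp hns hβp
  have hint : IsIntegral e.L β := (Algebra.IsIntegral.isIntegral (R := ℚ_[e.q]) β).tower_top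
  obtain ⟨M, hM⟩ : ∃ M, M = IntermediateField.adjoin e.L {β} := ⟨_, rfl⟩
  have hfr : finrank e.L M = p := by
    rw [hM, IntermediateField.adjoin.finrank hint, hmin, natDegree_X_pow_sub_C]
  have hβM : β ∈ M := by rw [hM]; exact IntermediateField.mem_adjoin_simple_self _ _
  have hgen : (⟨β, hβM⟩ : M) ^ p = algebraMap e.L M (e.toL a) := by
    apply Subtype.ext
    exact hβp
  obtain ⟨σ', hD'⟩ := Kummer.exists_data hp (hζ.map_of_injective e.toL.injective) hns hgen hfr
  rw [LocEmb.N, normGrp_eq_range hp hns hfr hgen] at hx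
  obtain ⟨y, rfl⟩ := hx
  -- the norm of the norm
  have h1 : ‖((Units.map (Algebra.norm e.L : M →* e.L) y : (e.L)ˣ) : e.L)‖ =
      ‖((y : M) : PadicAlgCl e.q)‖ ^ p := by
    have h2 := prod_pow_eq_norm hD' hp (y : M)
    have h3 : ‖((∏ i ∈ Finset.range p, (σ' ^ i) (y : M) : M) : PadicAlgCl e.q)‖ =
        ‖((algebraMap e.L M (Algebra.norm e.L (y : M)) : M) : PadicAlgCl e.q)‖ := by rw [h2]
    have h4 : ((∏ i ∈ Finset.range p, (σ' ^ i) (y : M) : M) : PadicAlgCl e.q) =
        ∏ i ∈ Finset.range p, (((σ' ^ i) (y : M) : M) : PadicAlgCl e.q) := by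
      exact map_prod (algebraMap M (PadicAlgCl e.q)) _ _
    rw [h4, norm_prod] at h3
    have h5 : ∀ i ∈ Finset.range p, ‖(((σ' ^ i) (y : M) : M) : PadicAlgCl e.q)‖ =
        ‖((y : M) : PadicAlgCl e.q)‖ := fun i _ ↦
      norm_aut_apply (M.val.comp ((σ' ^ i : M ≃ₐ[e.L] M) : M →ₐ[e.L] M)) (y : M)
    rw [Finset.prod_congr rfl h5, Finset.prod_const, Finset.card_range] at h3
    exact h3.symm
  rw [h1]
  -- `M` is contained in the closure of `ψ F`
  have hLle : ∀ z : e.L, (z : PadicAlgCl e.q) ∈ locF e.q ψ := by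
    intro z
    have : e.L ≤ locF e.q ψ := by
      change IntermediateField.adjoin ℚ_[e.q] (Set.range e.φ) ≤ _
      rw [IntermediateField.adjoin_le_iff]
      rintro _ ⟨x, rfl⟩
      rw [← hψ]
      exact mem_locF e.q ψ _
    exact this z.2
  have hyM : ((y : M) : PadicAlgCl e.q) ∈ locF e.q ψ := by
    let T : IntermediateField e.L (PadicAlgCl e.q) :=
      { (locF e.q ψ).toSubfield with
        algebraMap_mem' := fun z ↦ hLle z }
    have hMT : M ≤ T := by
      rw [hM, IntermediateField.adjoin_le_iff, Set.singleton_subset_iff]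
      exact mem_locF e.q ψ α
    exact hMT (y : M).2
  obtain ⟨z, hz⟩ := exists_approx e.q ψ hyM (norm_pos_iff.2 (by
    have := y.ne_zero
    intro h0
    apply this
    apply Subtype.ext
    exact h0))
  have hy0 : ‖ψ z‖ = ‖((y : M) : PadicAlgCl e.q)‖ := by
    apply Local.norm_eq_of_norm_sub_lt
    rwa [norm_sub_rev]
  have hz0 : z ≠ 0 := by
    rintro rfl
    rw [map_zero, norm_zero] at hy0
    have := norm_eq_zero.1 hy0.symm
    apply y.ne_zero
    apply Subtype.ext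
    exact this
  -- the place of `F`
  have hbelow : SUH.below E (pl ψ) = e.v := below_pl e.q hψ
  have : (pl ψ).asIdeal.LiesOver e.v.asIdeal := by
    rw [← hbelow]; infer_instance
  have hram := hur (pl ψ) hbelow
  obtain ⟨π, hπ⟩ := e.v.valuation_exists_uniformizer E
  have hπ0 : π ≠ 0 := by
    rintro rfl
    rw [map_zero] at hπ
    exact WithZero.coe_ne_zero hπ.symm
  have hπF : (pl ψ).valuation F (algebraMap E F π) = WithZero.exp (-1 : ℤ) := by
    rw [← HeightOneSpectrum.valuation_liesOver F e.v (pl ψ) π, hram, pow_one, hπ]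
  have hzv : (pl ψ).valuation F z ≠ 0 := (Valuation.ne_zero_iff _).2 hz0
  set n : ℤ := WithZero.log ((pl ψ).valuation F z) with hn
  have h6 : (pl ψ).valuation F z = (pl ψ).valuation F (algebraMap E F (π ^ (-n))) := by
    rw [map_zpow₀, map_zpow₀, hπF, ← WithZero.exp_log hzv, ← hn, ← WithZero.exp_zsmul]
    congr 1
    simp
  have h7 : ‖ψ z‖ = ‖e.toL (π ^ (-n))‖ := by
    rw [pl_valuation_eq_iff] at h6
    rw [h6, hψ]; rfl
  refine ⟨π ^ (-n), zpow_ne_zero _ hπ0, ?_⟩
  rw [← hy0, h7]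

/-- **Units are norms** in the unramified case. -/
theorem unit_mem_N_of_unramified (e : LocEmb E) (hp : p.Prime) (hp2 : p ≠ 2) {ζ a : E} {α : F}
    {σ : F ≃ₐ[E] F}
    (hD : Kummer.Data E F p ζ a α σ) (hζ : IsPrimitiveRoot ζ p)
    (hur : ∀ w : HeightOneSpectrum (𝓞 F), SUH.below E w = e.v →
      e.v.asIdeal.ramificationIdx' w.asIdeal = 1)
    (u : (e.L)ˣ) (hu : ‖(u : e.L)‖ = 1) : u ∈ e.N p a := by
  by_cases hns : ∃ c : e.L, c ^ p = e.toL a
  · rw [LocEmb.N, normGrp_eq_top hns]; exact Subgroup.mem_top _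
  push Not at hns
  let M : Subgroup (e.L)ˣ :=
    { carrier := {x | ∃ z : E, z ≠ 0 ∧ ‖(x : e.L)‖ = ‖e.toL z‖ ^ p}
      one_mem' := ⟨1, one_ne_zero, by simp⟩
      mul_mem' := by
        rintro x y ⟨z, hz, hxz⟩ ⟨t, ht, hyt⟩
        refine ⟨z * t, mul_ne_zero hz ht, ?_⟩
        rw [Units.val_mul, norm_mul, hxz, hyt, map_mul, norm_mul, mul_pow]
      inv_mem' := by
        rintro x ⟨z, hz, hxz⟩
        refine ⟨z⁻¹, inv_ne_zero hz, ?_⟩
        rw [Units.val_inv_eq_inv_val, norm_inv, hxz, map_inv₀, norm_inv, inv_pow] }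
  have hle : e.N p a ≤ M := fun x hx ↦ norm_mem_pow_of_mem_N e hp hD hζ hns hur hx
  have hidx := e.index_N hp hp2 hζ hns
  obtain ⟨π, hπ⟩ := e.v.valuation_exists_uniformizer E
  have hπ0 : π ≠ 0 := by
    rintro rfl
    rw [map_zero] at hπ
    exact WithZero.coe_ne_zero hπ.symm
  have hMtop : M.index ≠ 1 := by
    rw [Ne, Subgroup.index_eq_one]
    intro htop
    have h1 : e.toU (Units.mk0 π hπ0) ∈ M := by rw [htop]; exact Subgroup.mem_top _
    obtain ⟨z, hz, hzn⟩ := h1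
    refine e.uniformizer_ne hp hπ (e.toL π / (e.toL z) ^ p) (e.toL z) ?_ ?_
    · have h2 : ‖e.toL π‖ = ‖e.toL z‖ ^ p := hzn
      have h3 : ‖e.toL z‖ ≠ 0 := by
        rw [norm_ne_zero_iff, Ne, map_eq_zero]; exact hz
      rw [norm_div, norm_pow, h2, div_self (pow_ne_zero _ h3)]
    · have h3 : e.toL z ≠ 0 := by rw [Ne, map_eq_zero]; exact hz
      rw [div_mul_cancel₀ _ (pow_ne_zero _ h3)]
  have h4 : (e.N p a).relIndex M * M.index = p := by
    rw [Subgroup.relIndex_mul_index hle, hidx]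
  have h5 : (e.N p a).relIndex M = 1 := by
    have hd : M.index ∣ p := ⟨(e.N p a).relIndex M, by rw [mul_comm, h4]⟩
    rcases (Nat.dvd_prime hp).1 hd with h | h
    · exact absurd h hMtop
    · rw [h] at h4
      exact Nat.eq_of_mul_eq_mul_right hp.pos (by rw [h4, one_mul])
  rw [Subgroup.relIndex_eq_one] at h5
  apply h5
  exact ⟨1, one_ne_zero, by rw [hu, map_one, norm_one, one_pow]⟩

end Fermat.Agent.LT.D
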