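import Mathlib
import Fermat.Agent.LT.D.UnramNorm

/-!
# The Hasse norm theorem for `EL / E`, `L / K` cyclic of odd prime degree `p`, `μ_p ⊂ K`

The local conditions are expressed through valuations only.
-/

set_option autoImplicit false
set_option linter.unusedSectionVars false

open NumberField IsDedekindDomain Module Polynomial
open Fermat.Agent.CFT Fermat.Agent.CFT.W Fermat.Agent.CFT.Embed Fermat.Agent.CFT.NormGrp

namespace Fermat.Agent.LT.D

/-- Kummer theory: a cyclic extension of prime degree `p`, `μ_p ⊂ K`, is `K(a^{1/p})`. -/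
theorem exists_kummer {K L : Type*} [Field K] [Field L] [Algebra K L] {p : ℕ} (hp : p.Prime)
    {ζ : K} (hζ : IsPrimitiveRoot ζ p) [IsGalois K L] (hd : finrank K L = p) :
    ∃ (a : K) (α : L) (σ : L ≃ₐ[K] L), Kummer.Data K L p ζ a α σ ∧ α ≠ 0 ∧
      ∀ c : K, c ^ p ≠ a := by
  have hfd : FiniteDimensional K L := FiniteDimensional.of_finrank_pos (by rw [hd]; exact hp.pos)
  have hcard : Nat.card (L ≃ₐ[K] L) = p := by rw [IsGalois.card_aut_eq_finrank, hd]
  have : Fact p.Prime := ⟨hp⟩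
  have hcyc : IsCyclic (L ≃ₐ[K] L) := isCyclic_of_prime_card hcard
  obtain ⟨α, ⟨a, ha⟩, hα⟩ := exists_root_adjoin_eq_top_of_isCyclic K L
    ⟨ζ, (mem_primitiveRoots finrank_pos).2 (by rw [hd]; exact hζ)⟩
  rw [hd] at ha
  have hac : ∀ c : K, c ^ p ≠ a := by
    intro c hc
    obtain ⟨i, -, hi⟩ := Kummer.eq_pow_mul_of_pow_eq (K := K) (L := L) (x := α)
      (y := algebraMap K L c) hζ hp.pos (by rw [← map_pow, hc, ha])
    have h1 : α ∈ (⊥ : IntermediateField K L) := by
      rw [IntermediateField.mem_bot]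
      exact ⟨ζ ^ i * c, by rw [hi, map_mul, map_pow]⟩
    have h2 : (⊥ : IntermediateField K L) = ⊤ := by
      rw [← hα, eq_comm, eq_bot_iff, IntermediateField.adjoin_le_iff, Set.singleton_subset_iff]
      exact h1
    have h3 := IntermediateField.finrank_bot (F := K) (E := L)
    rw [h2, IntermediateField.finrank_top', hd] at h3
    exact hp.one_lt.ne' h3
  obtain ⟨σ, hD⟩ := Kummer.exists_data hp hζ hac ha.symm hd
  refine ⟨a, α, σ, hD, ?_, hac⟩
  rintro rfl
  rw [zero_pow hp.ne_zero, map_eq_zero] at ha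
  exact hac 0 (by rw [ha, zero_pow hp.ne_zero])

section tower

variable {K L E F : Type*} [Field K] [NumberField K] [Field L] [NumberField L]
  [Field E] [NumberField E] [Field F] [NumberField F] [Algebra K L] [Algebra K E] [Algebra L F]
  [Algebra E F] [Algebra K F] [IsScalarTower K L F] [IsScalarTower K E F] {p : ℕ}

theorem pow_ne_of_finrank_lt (hp : p.Prime) (hE : finrank K E < p) {a : K}
    (ha : ∀ c : K, c ^ p ≠ a) (c : E) : c ^ p ≠ algebraMap K E a := by
  intro hc
  have hmin := Kummer.minpoly_eq hp ha hc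
  have h1 : (minpoly K c).natDegree ≤ finrank K E := minpoly.natDegree_le c
  rw [hmin, natDegree_X_pow_sub_C] at h1
  omega

theorem below_below (w : HeightOneSpectrum (𝓞 F)) :
    SUH.below K (SUH.below L w) = SUH.below K (SUH.below E w) := by
  apply HeightOneSpectrum.ext
  change (w.asIdeal.under (𝓞 L)).under (𝓞 K) = (w.asIdeal.under (𝓞 E)).under (𝓞 K)
  rw [Ideal.under_under, Ideal.under_under]

/-- the ramification index of `F / E` is one at the places over which `L / K` is unramified -/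
theorem ramificationIdx_eq_one (hp : p.Prime) (hE : finrank K E < p)
    (hEF : finrank E F = p) (hKL : finrank K L = p) [IsGalois E F]
    (P : HeightOneSpectrum (𝓞 E))
    (hur : ∀ w : HeightOneSpectrum (𝓞 L), SUH.below K w = SUH.below K P →
      (SUH.below K P).asIdeal.ramificationIdx' w.asIdeal = 1)
    (w : HeightOneSpectrum (𝓞 F)) (hw : SUH.below E w = P) :
    P.asIdeal.ramificationIdx' w.asIdeal = 1 := by
  subst hw
  have h0 : SUH.below K (SUH.below L w) = SUH.below K (SUH.below E w) := below_below w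
  have h1 := hur (SUH.below L w) h0
  have hLO : (SUH.below L w).asIdeal.LiesOver (SUH.below K (SUH.below E w)).asIdeal := by
    rw [← h0]; infer_instance
  -- the two towers
  have h2 := Ideal.ramificationIdx'_algebra_tower' (SUH.below K (SUH.below E w)).asIdeal
    (SUH.below L w).asIdeal w.asIdeal
  have h3 := Ideal.ramificationIdx'_algebra_tower' (SUH.below K (SUH.below E w)).asIdeal
    (SUH.below E w).asIdeal w.asIdeal
  rw [h1, one_mul] at h2
  rw [h2] at h3
  -- bounds
  have hLF : finrank L F < p := by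
    have h4 := finrank_mul_finrank K L F
    have h5 := finrank_mul_finrank K E F
    rw [← h5, hKL, hEF, mul_comm] at h4
    have := Nat.eq_of_mul_eq_mul_right hp.pos h4
    omega
  have h6 : (SUH.below L w).asIdeal.ramificationIdx' w.asIdeal ≤ finrank L F := by
    rw [← Fermat.Agent.Density.sum_e_f F (SUH.below L w),
      Ideal.ramificationIdx'_eq_ramificationIdx _ _ (SUH.below L w).ne_bot]
    let Q : Fermat.Agent.Density.Above F (SUH.below L w) := ⟨w, rfl⟩
    refine le_trans ?_ (Finset.single_le_sum (fun _ _ ↦ Nat.zero_le _) (Finset.mem_univ Q))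
    exact Nat.le_mul_of_pos_right _ (Fermat.Agent.Density.f_pos F Q)
  have h7 : (SUH.below E w).asIdeal.ramificationIdx' w.asIdeal ∣ p := by
    have h8 := Ideal.ncard_primesOver_mul_ramificationIdxIn_mul_inertiaDegIn
      (SUH.below E w).asIdeal (𝓞 F) Gal(F/E)
    rw [IsGalois.card_aut_eq_finrank, hEF,
      Ideal.ramificationIdxIn_eq_ramificationIdx (SUH.below E w).asIdeal w.asIdeal (F ≃ₐ[E] F),
      ← Ideal.ramificationIdx'_eq_ramificationIdx _ _ (SUH.below E w).ne_bot] at h8
    exact ⟨((SUH.below E w).asIdeal.primesOver (𝓞 F)).ncard *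
      (SUH.below E w).asIdeal.inertiaDegIn (𝓞 F), by rw [← h8]; ring⟩
  rcases (Nat.dvd_prime hp).1 h7 with h8 | h8
  · exact h8
  · exfalso
    rw [h8] at h3
    have h9 : (SUH.below K (SUH.below E w)).asIdeal.ramificationIdx' (SUH.below E w).asIdeal ≠ 0 :=
      Ideal.IsDedekindDomain.ramificationIdx'_ne_zero_of_liesOver _
        (SUH.below K (SUH.below E w)).ne_bot
    have h10 : p ≤ (SUH.below L w).asIdeal.ramificationIdx' w.asIdeal := by
      rw [h3]
      exact Nat.le_mul_of_pos_left p (Nat.pos_of_ne_zero h9)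
    omega

/-- An element close to a `p`-th power is a local `p`-th power. -/
theorem exists_pow_eq_of_close (hp : p.Prime) (hp2 : p ≠ 2) (e : LocEmb E) {u c : E} (hu : u ≠ 0)
    (hc : e.v.valuation E (u - c ^ p) < e.v.valuation E ((p : E) ^ 2 * u)) :
    ∃ x : e.L, x ^ p = e.toL u := by
  have hcomp := Local.completeSpace e.q e.L
  have h1 : ‖e.toL u - (e.toL c) ^ p‖ < ‖(p : e.L)‖ ^ 2 * ‖e.toL u‖ := by
    have h2 : ¬ e.v.valuation E ((p : E) ^ 2 * u) ≤ e.v.valuation E (u - c ^ p) := not_le.2 hc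
    change ¬ (pl e.φ).valuation E ((p : E) ^ 2 * u) ≤ (pl e.φ).valuation E (u - c ^ p) at h2
    rw [pl_valuation_le_iff, not_le] at h2
    have h3 : ‖e.φ (u - c ^ p)‖ = ‖e.toL u - (e.toL c) ^ p‖ := by
      rw [← map_pow, ← map_sub]; rfl
    have h4 : ‖e.φ ((p : E) ^ 2 * u)‖ = ‖(p : e.L)‖ ^ 2 * ‖e.toL u‖ := by
      rw [← norm_pow, ← norm_mul]
      have : ((p : e.L)) ^ 2 * e.toL u = e.toL ((p : E) ^ 2 * u) := by
        rw [map_mul, map_pow, map_natCast]
      rw [this]; rfl
    rwa [h3, h4] at h2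
  have hp1 : ‖(p : e.L)‖ ≤ 1 := IsUltrametricDist.norm_natCast_le_one e.L p
  have hp0 : (p : e.L) ≠ 0 := Local.natCast_ne_zero_of_prime e.q e.L hp
  have hpn : 0 < ‖(p : e.L)‖ := norm_pos_iff.2 hp0
  have hu0 : e.toL u ≠ 0 := by rw [Ne, map_eq_zero]; exact hu
  have hun : 0 < ‖e.toL u‖ := norm_pos_iff.2 hu0
  have h5 : ‖e.toL u - (e.toL c) ^ p‖ < ‖e.toL u‖ :=
    h1.trans_le (mul_le_of_le_one_left hun.le (pow_le_one₀ (norm_nonneg _) hp1))
  have h6 : ‖(e.toL c) ^ p‖ = ‖e.toL u‖ := by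
    apply Local.norm_eq_of_norm_sub_lt
    rwa [norm_sub_rev]
  have hc0 : (e.toL c) ^ p ≠ 0 := by
    intro h0
    rw [h0, norm_zero] at h6
    exact hun.ne h6
  have h7 : ‖e.toL u / (e.toL c) ^ p - 1‖ < ‖(p : e.L)‖ ^ 2 := by
    have h8 : e.toL u / (e.toL c) ^ p - 1 = (e.toL u - (e.toL c) ^ p) / (e.toL c) ^ p := by
      rw [sub_div, div_self hc0]
    rw [h8, norm_div, h6, div_lt_iff₀ hun]
    exact h1
  obtain ⟨x, -, hx⟩ := Local.exists_pow_eq hp hp2 hp0
    (c := ‖e.toL u / (e.toL c) ^ p - 1‖ / ‖(p : e.L)‖) (by positivity)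
    (by rw [div_le_iff₀ hpn, ← pow_two]; exact h7.le)
    (by
      rw [div_lt_one hpn]
      refine h7.trans_le ?_
      rw [pow_two]
      exact mul_le_of_le_one_left hpn.le hp1)
    (e.toL u / (e.toL c) ^ p) (by rw [mul_div_cancel₀ _ hpn.ne'])
  exact ⟨x * e.toL c, by rw [mul_pow, hx, div_mul_cancel₀ _ hc0]⟩

/-- **Hasse norm theorem for `F = EL` over `E`.** -/
theorem exists_norm_eq (hp : p.Prime) (hp2 : p ≠ 2) {ζ : K} (hζ : IsPrimitiveRoot ζ p)
    [IsGalois K L] (hKL : finrank K L = p) (hE : finrank K E < p) (hEF : finrank E F = p)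
    (u : Eˣ)
    (h : ∀ P : HeightOneSpectrum (𝓞 E),
      (∃ w w' : HeightOneSpectrum (𝓞 L), w ≠ w' ∧ SUH.below K w = SUH.below K P ∧
        SUH.below K w' = SUH.below K P) ∨
      ((∀ w : HeightOneSpectrum (𝓞 L), SUH.below K w = SUH.below K P →
        (SUH.below K P).asIdeal.ramificationIdx' w.asIdeal = 1) ∧
        P.valuation E (u : E) = 1) ∨
      (∃ c : E, P.valuation E ((u : E) - c ^ p) < P.valuation E ((p : E) ^ 2 * (u : E)))) :
    ∃ y : Fˣ, Units.map (Algebra.norm E : F →* E) y = u := by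
  obtain ⟨a, α, σ, hD, hα, ha⟩ := exists_kummer hp hζ hKL
  have hζE : IsPrimitiveRoot (algebraMap K E ζ) p :=
    hζ.map_of_injective (algebraMap K E).injective
  have haE := pow_ne_of_finrank_lt (E := E) hp hE ha
  have hαF : (algebraMap L F α) ^ p = algebraMap E F (algebraMap K E a) := by
    rw [← map_pow, hD.pow_eq, ← IsScalarTower.algebraMap_apply, ← IsScalarTower.algebraMap_apply]
  obtain ⟨σ', hD'⟩ := Kummer.exists_data hp hζE haE hαF hEF
  have hα' : algebraMap L F α ≠ 0 := by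
    rwa [Ne, FaithfulSMul.algebraMap_eq_zero_iff]
  have hgal := hD'.galois
  apply HasseNorm.hasse_norm hp hp2 hζE hD' hα' u
  intro e
  rcases h e.v with ⟨w, w', hne, hw, hw'⟩ | ⟨hur, hu⟩ | ⟨c, hc⟩
  · -- split
    let φ : K →+* PadicAlgCl e.q := e.φ.comp (algebraMap K E)
    have hv : pl φ = SUH.below K e.v := (below_pl e.q (fun x ↦ rfl)).symm
    have hg : SUH.gnum L (pl φ) ≠ 1 := by
      intro h1
      rw [SUH.gnum, Set.ncard_eq_one] at h1
      obtain ⟨Q, hQ⟩ := h1
      have h2 : ∀ t : HeightOneSpectrum (𝓞 L), SUH.below K t = SUH.below K e.v →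
          t.asIdeal = Q := by
        intro t ht
        have h3 : t.asIdeal ∈ Ideal.primesOver (pl φ).asIdeal (𝓞 L) := by
          rw [hv, ← ht]
          exact ⟨t.isPrime, inferInstance⟩
        rw [hQ] at h3
        exact h3
      exact hne (HeightOneSpectrum.ext ((h2 w hw).trans (h2 w' hw').symm))
    rw [Ne, gnum_eq_one_iff e.q hD hp hζ hα] at hg
    push Not at hg
    obtain ⟨c, hc, hca⟩ := hg
    have hle : locF e.q φ ≤ e.L := by
      change IntermediateField.adjoin ℚ_[e.q] (Set.range φ) ≤ _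
      rw [IntermediateField.adjoin_le_iff]
      rintro _ ⟨x, rfl⟩
      exact mem_locF e.q e.φ _
    rw [LocEmb.N, normGrp_eq_top ⟨⟨c, hle hc⟩, Subtype.ext hca⟩]
    exact Subgroup.mem_top _
  · -- unramified
    refine unit_mem_N_of_unramified e hp hp2 hD' hζE ?_ (e.toU u) ?_
    · intro w hw
      exact ramificationIdx_eq_one (L := L) hp hE hEF hKL e.v hur w hw
    · rw [LocEmb.coe_toU]
      exact (e.valuation_eq_one_iff (u : E)).1 hu
  · -- close to a `p`-th power
    obtain ⟨x, hx⟩ := exists_pow_eq_of_close hp hp2 e u.ne_zero hc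
    have hx0 : x ≠ 0 := by
      rintro rfl
      rw [zero_pow hp.ne_zero, eq_comm, map_eq_zero] at hx
      exact u.ne_zero hx
    have h1 : e.toU u = (Units.mk0 x hx0) ^ p := by
      apply Units.ext
      exact hx.symm
    rw [h1]
    exact pow_mem_normGrp hp _

end tower

end Fermat.Agent.LT.D
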