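import Mathlib

/-!
# The norm map on conjugacy classes of `PGL₂` for a cyclic cubic extension `L/K`

`σ` is an automorphism of `L` over `K` with `σ³ = 1` and fixed field `K`. For `δ ∈ GL₂(L)` we put
`nm σ δ = δ σ(δ) σ²(δ)`.
-/

set_option autoImplicit false

open Matrix

namespace Fermat.Agent.LT.D

section TwoByTwo

variable {F : Type*} [Field F]

/-- scalar matrices -/
def IsSc (A : Matrix (Fin 2) (Fin 2) F) : Prop := ∃ c : F, A = c • (1 : Matrix (Fin 2) (Fin 2) F)

theorem isSc_iff (A : Matrix (Fin 2) (Fin 2) F) :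
    IsSc A ↔ A 0 1 = 0 ∧ A 1 0 = 0 ∧ A 0 0 = A 1 1 := by
  constructor
  · rintro ⟨c, rfl⟩
    simp
  · rintro ⟨h1, h2, h3⟩
    refine ⟨A 0 0, ?_⟩
    ext i j
    fin_cases i <;> fin_cases j <;> simp [h1, h2, h3]

/-- The companion matrix of `X² - tX + d`. -/
def comp (t d : F) : Matrix (Fin 2) (Fin 2) F := !![0, -d; 1, t]

theorem trace_comp (t d : F) : (comp t d).trace = t := by
  simp [comp, Matrix.trace_fin_two]

theorem det_comp (t d : F) : (comp t d).det = d := by
  simp [comp, Matrix.det_fin_two]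

/-- A non-scalar matrix is conjugate to a companion matrix. -/
theorem exists_conj_comp {A : Matrix (Fin 2) (Fin 2) F} (hA : ¬ IsSc A) :
    ∃ g : GL (Fin 2) F, A * (g : Matrix (Fin 2) (Fin 2) F) = g * comp A.trace A.det := by
  -- it is enough to find `x, y` with `det [v, A v] ≠ 0`, `v = (x, y)`
  have key : ∀ x y : F, x * (A 1 0 * x + A 1 1 * y) - (A 0 0 * x + A 0 1 * y) * y ≠ 0 →
      ∃ g : GL (Fin 2) F, A * (g : Matrix (Fin 2) (Fin 2) F) = g * comp A.trace A.det := by
    intro x y h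
    let M : Matrix (Fin 2) (Fin 2) F :=
      !![x, A 0 0 * x + A 0 1 * y; y, A 1 0 * x + A 1 1 * y]
    have hM : M.det ≠ 0 := by
      rw [Matrix.det_fin_two]
      simpa [M] using h
    refine ⟨Matrix.GeneralLinearGroup.mkOfDetNeZero M hM, ?_⟩
    change A * M = M * comp A.trace A.det
    rw [Matrix.trace_fin_two, Matrix.det_fin_two]
    ext i j
    fin_cases i <;> fin_cases j <;>
      simp [M, comp, Matrix.mul_apply, Fin.sum_univ_two] <;> ring
  rw [isSc_iff] at hA
  by_cases h1 : A 1 0 = 0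
  · by_cases h2 : A 0 1 = 0
    · refine key 1 1 ?_
      intro h
      apply hA
      refine ⟨h2, h1, ?_⟩
      rw [h1, h2] at h
      linear_combination -h
    · refine key 0 1 ?_
      simpa using h2
  · refine key 1 0 ?_
    simpa using h1

/-- Two non-scalar matrices with the same trace and determinant are conjugate. -/
theorem exists_conj {A B : Matrix (Fin 2) (Fin 2) F} (hA : ¬ IsSc A) (hB : ¬ IsSc B)
    (ht : A.trace = B.trace) (hd : A.det = B.det) :
    ∃ g : GL (Fin 2) F, A * (g : Matrix (Fin 2) (Fin 2) F) = g * B := by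
  obtain ⟨g, hg⟩ := exists_conj_comp hA
  obtain ⟨h, hh⟩ := exists_conj_comp hB
  refine ⟨g * h⁻¹, ?_⟩
  rw [ht, hd] at hg
  have h1 : (h⁻¹ : GL (Fin 2) F) * (h : GL (Fin 2) F) = 1 := inv_mul_cancel h
  have h2 : ((h⁻¹ : GL (Fin 2) F) : Matrix (Fin 2) (Fin 2) F) * (h : GL (Fin 2) F) = 1 := by
    rw [← Units.val_mul, h1, Units.val_one]
  have h3 : ((h : GL (Fin 2) F) : Matrix (Fin 2) (Fin 2) F) * ((h⁻¹ : GL (Fin 2) F)) = 1 := by
    rw [← Units.val_mul, mul_inv_cancel, Units.val_one]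
  have h4 : comp B.trace B.det * ((h⁻¹ : GL (Fin 2) F) : Matrix (Fin 2) (Fin 2) F) =
      ((h⁻¹ : GL (Fin 2) F) : Matrix (Fin 2) (Fin 2) F) * B := by
    calc comp B.trace B.det * ((h⁻¹ : GL (Fin 2) F) : Matrix (Fin 2) (Fin 2) F)
        = ((h⁻¹ : GL (Fin 2) F) : Matrix (Fin 2) (Fin 2) F) *
          ((h : Matrix (Fin 2) (Fin 2) F) * comp B.trace B.det) *
            ((h⁻¹ : GL (Fin 2) F) : Matrix (Fin 2) (Fin 2) F) := by
          rw [← mul_assoc, h2, one_mul]
      _ = ((h⁻¹ : GL (Fin 2) F) : Matrix (Fin 2) (Fin 2) F) * B := by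
          rw [← hh, mul_assoc, mul_assoc, h3, mul_one]
  rw [Units.val_mul, ← mul_assoc, hg, mul_assoc, h4, mul_assoc]

/-- The centraliser of a non-scalar matrix. -/
theorem eq_of_commute {A B : Matrix (Fin 2) (Fin 2) F} (hA : ¬ IsSc A) (h : A * B = B * A) :
    ∃ x y : F, B = x • (1 : Matrix (Fin 2) (Fin 2) F) + y • A := by
  rw [isSc_iff] at hA
  have e : ∀ i j, (A * B) i j = (B * A) i j := fun i j => by rw [h]
  have e00 := e 0 0
  have e01 := e 0 1
  have e10 := e 1 0
  simp only [Matrix.mul_apply, Fin.sum_univ_two] at e00 e01 e10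
  by_cases h1 : A 1 0 = 0
  · by_cases h2 : A 0 1 = 0
    · have h3 : A 0 0 - A 1 1 ≠ 0 := by
        intro h3
        exact hA ⟨h2, h1, sub_eq_zero.mp h3⟩
      have b01 : B 0 1 = 0 := by
        have : (A 0 0 - A 1 1) * B 0 1 = 0 := by
          rw [h2] at e01; linear_combination e01
        exact (mul_eq_zero.mp this).resolve_left h3
      have b10 : B 1 0 = 0 := by
        have : (A 0 0 - A 1 1) * B 1 0 = 0 := by
          rw [h1] at e10; linear_combination -e10
        exact (mul_eq_zero.mp this).resolve_left h3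
      refine ⟨B 0 0 - (B 0 0 - B 1 1) / (A 0 0 - A 1 1) * A 0 0,
        (B 0 0 - B 1 1) / (A 0 0 - A 1 1), ?_⟩
      ext i j
      fin_cases i <;> fin_cases j <;> simp [h1, h2, b01, b10]
      field_simp
      ring
    · refine ⟨B 0 0 - B 0 1 / A 0 1 * A 0 0, B 0 1 / A 0 1, ?_⟩
      ext i j
      fin_cases i <;> fin_cases j <;> simp [h1, h2]
      · have : A 0 1 * B 1 0 = 0 := by rw [h1] at e00; linear_combination e00
        exact (mul_eq_zero.mp this).resolve_left h2
      · field_simp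
        linear_combination e01
  · refine ⟨B 0 0 - B 1 0 / A 1 0 * A 0 0, B 1 0 / A 1 0, ?_⟩
    ext i j
    fin_cases i <;> fin_cases j <;> simp [h1]
    · field_simp
      linear_combination -e00
    · field_simp
      linear_combination -e10

end TwoByTwo

/-! ### The cyclic cubic situation -/

section Cubic

variable {K L : Type*} [Field K] [Field L] [Algebra K L]

/-- The data: an automorphism of order dividing three with fixed field `K`. -/
structure Cub (K L : Type*) [Field K] [Field L] [Algebra K L] where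
  /-- the generator -/
  σ : L ≃ₐ[K] L
  cube : ∀ x, σ (σ (σ x)) = x
  ne : ∃ x, σ x ≠ x
  fixed : ∀ x, σ x = x → ∃ y : K, algebraMap K L y = x

variable (C : Cub K L)

namespace Cub

/-- the action of `σ` on matrices, as a ring homomorphism -/
def s : Matrix (Fin 2) (Fin 2) L →+* Matrix (Fin 2) (Fin 2) L :=
  (C.σ : L →+* L).mapMatrix

theorem s_apply (A : Matrix (Fin 2) (Fin 2) L) (i j : Fin 2) : C.s A i j = C.σ (A i j) := rfl

theorem s_cube (A : Matrix (Fin 2) (Fin 2) L) : C.s (C.s (C.s A)) = A := by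
  ext i j
  simp only [s_apply, C.cube]

theorem s_smul (c : L) (A : Matrix (Fin 2) (Fin 2) L) : C.s (c • A) = C.σ c • C.s A := by
  ext i j
  simp [s_apply]

theorem s_adjugate (A : Matrix (Fin 2) (Fin 2) L) : C.s A.adjugate = (C.s A).adjugate := by
  rw [Matrix.adjugate_fin_two, Matrix.adjugate_fin_two]
  ext i j
  fin_cases i <;> fin_cases j <;> simp [s_apply]

theorem s_det (A : Matrix (Fin 2) (Fin 2) L) : (C.s A).det = C.σ A.det := by
  rw [Matrix.det_fin_two, Matrix.det_fin_two]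
  simp [s_apply]

theorem s_trace (A : Matrix (Fin 2) (Fin 2) L) : (C.s A).trace = C.σ A.trace := by
  rw [Matrix.trace_fin_two, Matrix.trace_fin_two]
  simp [s_apply]

/-- The norm `δ σ(δ) σ²(δ)`. -/
def nm (A : Matrix (Fin 2) (Fin 2) L) : Matrix (Fin 2) (Fin 2) L := A * C.s A * C.s (C.s A)

theorem s_nm_mul (A : Matrix (Fin 2) (Fin 2) L) : A * C.s (C.nm A) = C.nm A * A := by
  simp only [nm, map_mul, s_cube, mul_assoc]

/-- matrices over `K` inside matrices over `L` -/
def inc : Matrix (Fin 2) (Fin 2) K →+* Matrix (Fin 2) (Fin 2) L := (algebraMap K L).mapMatrix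

theorem inc_apply (A : Matrix (Fin 2) (Fin 2) K) (i j : Fin 2) :
    inc (L := L) A i j = algebraMap K L (A i j) := rfl

theorem inc_injective :
    Function.Injective (inc : Matrix (Fin 2) (Fin 2) K →+* Matrix (Fin 2) (Fin 2) L) := by
  intro A B h
  ext i j
  exact (algebraMap K L).injective (by rw [← inc_apply, ← inc_apply, h])

theorem s_inc (A : Matrix (Fin 2) (Fin 2) K) : C.s (inc A) = inc A := by
  ext i j
  simp [s_apply, inc_apply]

theorem exists_inc {A : Matrix (Fin 2) (Fin 2) L} (h : C.s A = A) :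
    ∃ B : Matrix (Fin 2) (Fin 2) K, inc B = A := by
  have h1 : ∀ i j, ∃ y : K, algebraMap K L y = A i j := fun i j =>
    C.fixed _ (by rw [← s_apply, h])
  choose B hB using h1
  exact ⟨Matrix.of B, by ext i j; exact hB i j⟩

theorem det_inc (A : Matrix (Fin 2) (Fin 2) K) : (inc (L := L) A).det = algebraMap K L A.det := by
  rw [Matrix.det_fin_two, Matrix.det_fin_two]
  simp [inc_apply]

theorem trace_inc (A : Matrix (Fin 2) (Fin 2) K) :
    (inc (L := L) A).trace = algebraMap K L A.trace := by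
  rw [Matrix.trace_fin_two, Matrix.trace_fin_two]
  simp [inc_apply]

theorem isSc_inc {A : Matrix (Fin 2) (Fin 2) K} : IsSc (inc (L := L) A) ↔ IsSc A := by
  rw [isSc_iff, isSc_iff]
  simp only [inc_apply, map_eq_zero, (algebraMap K L).injective.eq_iff]

/-- Independence of `1, σ, σ²`. -/
theorem indep {a b c : L} (h : ∀ x : L, a * x + b * C.σ x + c * C.σ (C.σ x) = 0) :
    a = 0 ∧ b = 0 ∧ c = 0 := by
  obtain ⟨y, hy⟩ := C.ne
  have hy' : C.σ (C.σ y) ≠ C.σ y := fun h => hy (C.σ.injective h)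
  have hy'' : y ≠ C.σ (C.σ y) := by
    intro h
    have h2 := C.cube y
    rw [← h] at h2
    exact hy h2
  -- Vandermonde elimination by hand: evaluate at `x`, `y x`
  have h1 : ∀ x : L, b * (C.σ y - y) * C.σ x + c * (C.σ (C.σ y) - y) * C.σ (C.σ x) = 0 := by
    intro x
    have e1 := h (y * x)
    have e2 := h x
    simp only [map_mul] at e1
    linear_combination e1 - y * e2
  have h2 : ∀ x : L, c * (C.σ (C.σ y) - y) * (C.σ (C.σ y) - C.σ y) * C.σ (C.σ x) = 0 := by
    intro x
    have e1 := h1 (y * x)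
    have e2 := h1 x
    simp only [map_mul] at e1
    linear_combination e1 - C.σ y * e2
  have hc : c = 0 := by
    have e := h2 1
    simp only [map_one, mul_one] at e
    rcases mul_eq_zero.mp e with e | e
    · rcases mul_eq_zero.mp e with e | e
      · exact e
      · exact absurd (sub_eq_zero.mp e).symm hy''
    · exact absurd (sub_eq_zero.mp e) hy'
  have hb : b = 0 := by
    have e := h1 1
    rw [hc] at e
    simp only [map_one, mul_one, zero_mul, add_zero] at e
    rcases mul_eq_zero.mp e with e | e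
    · exact e
    · exact absurd (sub_eq_zero.mp e) hy
  have ha : a = 0 := by
    have e := h 1
    rw [hb, hc] at e
    simpa using e
  exact ⟨ha, hb, hc⟩

/-- `σ` on `GL₂(L)`. -/
abbrev S : GL (Fin 2) L →* GL (Fin 2) L := Matrix.GeneralLinearGroup.map (C.σ : L →+* L)

/-- `GL₂(K) → GL₂(L)`. -/
abbrev Inc : GL (Fin 2) K →* GL (Fin 2) L := Matrix.GeneralLinearGroup.map (algebraMap K L)

theorem coe_S (g : GL (Fin 2) L) :
    ((C.S g : GL (Fin 2) L) : Matrix (Fin 2) (Fin 2) L) = C.s g := rfl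

theorem coe_Inc (g : GL (Fin 2) K) :
    ((Inc g : GL (Fin 2) L) : Matrix (Fin 2) (Fin 2) L) = inc (g : Matrix (Fin 2) (Fin 2) K) := rfl

theorem S_cube (g : GL (Fin 2) L) : C.S (C.S (C.S g)) = g := Units.ext (C.s_cube _)

theorem S_Inc (g : GL (Fin 2) K) : C.S (Inc g) = Inc g := Units.ext (C.s_inc _)

/-- The norm `δ σ(δ) σ²(δ)` of `δ ∈ GL₂(L)`. -/
def N (g : GL (Fin 2) L) : GL (Fin 2) L := g * C.S g * C.S (C.S g)

theorem coe_N (g : GL (Fin 2) L) :
    ((C.N g : GL (Fin 2) L) : Matrix (Fin 2) (Fin 2) L) = C.nm g := rfl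

/-- twisted conjugation -/
theorem N_tw (g δ : GL (Fin 2) L) : C.N (g⁻¹ * δ * C.S g) = g⁻¹ * C.N δ * g := by
  simp only [N, map_mul, map_inv, S_cube]
  group

/-- `σ(N δ) = δ⁻¹ N δ δ`. -/
theorem mul_S_N (δ : GL (Fin 2) L) : δ * C.S (C.N δ) = C.N δ * δ := Units.ext (C.s_nm_mul _)

theorem s_inj : Function.Injective C.s := by
  intro A B h
  rw [← C.s_cube A, h, C.s_cube]

/-- For commuting elements `nm` is multiplicative. -/
theorem nm_mul {A B : Matrix (Fin 2) (Fin 2) L} (h2 : C.s A * B = B * C.s A)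
    (h3 : C.s (C.s A) * B = B * C.s (C.s A)) : C.nm (A * B) = C.nm A * C.nm B := by
  have h4 : C.s (C.s A) * C.s B = C.s B * C.s (C.s A) := by rw [← map_mul, h2, map_mul]
  simp only [nm, map_mul]
  calc A * B * (C.s A * C.s B) * (C.s (C.s A) * C.s (C.s B))
      = A * (B * C.s A) * (C.s B * C.s (C.s A)) * C.s (C.s B) := by simp only [mul_assoc]
    _ = A * (C.s A * B) * (C.s (C.s A) * C.s B) * C.s (C.s B) := by rw [h2, h4]
    _ = A * C.s A * (B * C.s (C.s A)) * C.s B * C.s (C.s B) := by simp only [mul_assoc]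
    _ = A * C.s A * (C.s (C.s A) * B) * C.s B * C.s (C.s B) := by rw [h3]
    _ = _ := by simp only [mul_assoc]

theorem nm_smul (c : L) (A : Matrix (Fin 2) (Fin 2) L) :
    C.nm (c • A) = (c * C.σ c * C.σ (C.σ c)) • C.nm A := by
  simp only [nm, s_smul, Matrix.smul_mul, Matrix.mul_smul, smul_smul]
  congr 1
  ring

theorem det_nm (A : Matrix (Fin 2) (Fin 2) L) :
    (C.nm A).det = A.det * C.σ A.det * C.σ (C.σ A.det) := by
  simp only [nm, Matrix.det_mul, s_det]

/-- The norm of `L/K`. -/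
def nL (x : L) : L := x * C.σ x * C.σ (C.σ x)

theorem nL_mul (x y : L) : C.nL (x * y) = C.nL x * C.nL y := by
  simp only [nL, map_mul]; ring

theorem nL_inv (x : L) : C.nL x⁻¹ = (C.nL x)⁻¹ := by
  simp only [nL, map_inv₀, mul_inv]

theorem nL_one : C.nL 1 = 1 := by simp [nL]

theorem nL_ne_zero {x : L} (hx : x ≠ 0) : C.nL x ≠ 0 := by
  have h : ∀ y : L, y ≠ 0 → C.σ y ≠ 0 := fun y hy => by
    rwa [Ne, map_eq_zero_iff _ C.σ.injective]
  exact mul_ne_zero (mul_ne_zero hx (h _ hx)) (h _ (h _ hx))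

theorem σ_nL (x : L) : C.σ (C.nL x) = C.nL x := by
  simp only [nL, map_mul, C.cube]; ring

theorem nL_algebraMap (x : K) : C.nL (algebraMap K L x) = algebraMap K L (x ^ 3) := by
  simp only [nL, AlgEquiv.commutes, map_pow]; ring

/-- Hilbert 90 for `L/K`. -/
theorem h90 {u : L} (hu : C.nL u = 1) : ∃ w : L, w ≠ 0 ∧ u * C.σ w = w := by
  have h0 : ∃ x : L, x + u * C.σ x + u * C.σ u * C.σ (C.σ x) ≠ 0 := by
    by_contra h
    push Not at h
    have := (C.indep (a := 1) (b := u) (c := u * C.σ u) (fun x => by rw [one_mul]; exact h x)).1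
    exact one_ne_zero this
  obtain ⟨x, hx⟩ := h0
  refine ⟨_, hx, ?_⟩
  simp only [map_add, map_mul, C.cube]
  unfold nL at hu
  linear_combination x * hu

/-- `{a + b Γ}` with the action of `σ`: Hilbert 90 for `L[Γ]`, `Γ` over `K` without eigenvalue. -/
theorem h90_matrix {u : Matrix (Fin 2) (Fin 2) L} (hu : C.nm u = 1) :
    ∃ x : L, x • (1 : Matrix (Fin 2) (Fin 2) L) + C.σ x • u + C.σ (C.σ x) • (u * C.s u) ≠ 0 ∧
      u * C.s (x • (1 : Matrix (Fin 2) (Fin 2) L) + C.σ x • u + C.σ (C.σ x) • (u * C.s u)) =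
        x • (1 : Matrix (Fin 2) (Fin 2) L) + C.σ x • u + C.σ (C.σ x) • (u * C.s u) := by
  have h0 : ∃ x : L,
      x • (1 : Matrix (Fin 2) (Fin 2) L) + C.σ x • u + C.σ (C.σ x) • (u * C.s u) ≠ 0 := by
    by_contra h
    push Not at h
    have := (C.indep (a := 1) (b := u 0 0) (c := (u * C.s u) 0 0) (fun x => by
      have h1 := congrFun (congrFun (h x) 0) 0
      simp only [Matrix.add_apply, Matrix.smul_apply, Matrix.one_apply_eq, smul_eq_mul,
        Matrix.zero_apply] at h1
      linear_combination h1)).1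
    exact one_ne_zero this
  obtain ⟨x, hx⟩ := h0
  refine ⟨x, hx, ?_⟩
  rw [map_add, map_add, C.s_smul, C.s_smul, C.s_smul, map_one, map_mul, C.cube]
  unfold nm at hu
  rw [mul_add, mul_add, Matrix.mul_smul, Matrix.mul_smul, Matrix.mul_smul, mul_one, ← mul_assoc,
    hu]
  abel

end Cub

end Cubic

end Fermat.Agent.LT.D
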