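import Mathlib
import Fermat.Agent.LT.D.NormMap

/-!
# Norm map on (twisted) conjugacy classes: `GL₂` level, up to scalars
-/

set_option autoImplicit false

open Matrix

namespace Fermat.Agent.LT.D

/-! ### Abstract lemma in a commutative group -/

section Abstract

theorem abstract_unique_add {T : Type*} [AddCommGroup T] (τ : T →+ T)
    (h90 : ∀ u : T, u + τ u + τ (τ u) = 0 → ∃ w, u + τ w = w)
    {u c z u1 : T} (hu : u + τ u + τ (τ u) = c) (hz : u + u = z + u1)
    (h1 : u1 + τ u1 + τ (τ u1) = 0) : ∃ t : T, u + τ t = c - z + t := by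
  obtain ⟨w, hw⟩ := h90 u1 h1
  refine ⟨u + u + τ u - w, ?_⟩
  have h2 : u1 = w - τ w := by rw [eq_sub_iff_add_eq, hw]
  have h3 : z = u + u - (w - τ w) := by rw [← h2, hz]; abel
  rw [h3, ← hu]
  simp only [map_add, map_sub]
  abel

theorem abstract_unique {T : Type*} [CommGroup T] (τ : T →* T)
    (h90 : ∀ u : T, u * τ u * τ (τ u) = 1 → ∃ w, u * τ w = w)
    {u c z u1 : T} (hu : u * τ u * τ (τ u) = c) (hz : u * u = z * u1)
    (h1 : u1 * τ u1 * τ (τ u1) = 1) : ∃ t : T, u * τ t = c / z * t :=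
  abstract_unique_add (T := Additive T) (MonoidHom.toAdditive τ) h90 (u := u) (c := c) (z := z)
    (u1 := u1) hu hz h1

end Abstract

/-! ### Regular elements -/

section Reg

variable {F : Type*} [Field F]

/-- distinct eigenvalues and trace non zero -/
def Disc (A : Matrix (Fin 2) (Fin 2) F) : Prop := A.trace ^ 2 - 4 * A.det ≠ 0

theorem Disc.not_isSc {A : Matrix (Fin 2) (Fin 2) F} (h : Disc A) : ¬ IsSc A := by
  rintro ⟨c, rfl⟩
  apply h
  simp
  ring

/-- no eigenvalue -/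
def Ell (A : Matrix (Fin 2) (Fin 2) F) : Prop := ∀ x : F, x ^ 2 - A.trace * x + A.det ≠ 0

theorem Ell.not_isSc {A : Matrix (Fin 2) (Fin 2) F} (h : Ell A) : ¬ IsSc A := by
  rintro ⟨c, rfl⟩
  apply h c
  simp
  ring

theorem det_lin (A : Matrix (Fin 2) (Fin 2) F) (x y : F) :
    (x • (1 : Matrix (Fin 2) (Fin 2) F) + y • A).det =
      x ^ 2 + x * y * A.trace + y ^ 2 * A.det := by
  simp [Matrix.trace_fin_two, Matrix.det_fin_two]
  ring

theorem Ell.det_ne_zero {A B : Matrix (Fin 2) (Fin 2) F} (hA : Ell A) (h : A * B = B * A)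
    (hB : B ≠ 0) : B.det ≠ 0 := by
  obtain ⟨x, y, rfl⟩ := eq_of_commute hA.not_isSc h
  rw [det_lin]
  by_cases hy : y = 0
  · subst hy
    have hx : x ≠ 0 := by
      rintro rfl
      apply hB
      simp
    simpa using hx
  · intro h0
    apply hA (-x / y)
    field_simp
    linear_combination h0

/-- the centraliser of a non-scalar matrix is commutative -/
theorem commute_of_commute {A B B' : Matrix (Fin 2) (Fin 2) F} (hA : ¬ IsSc A)
    (h : A * B = B * A) (h' : A * B' = B' * A) : B * B' = B' * B := by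
  obtain ⟨x, y, rfl⟩ := eq_of_commute hA h
  rw [add_mul, mul_add, Matrix.smul_mul, Matrix.smul_mul, Matrix.mul_smul, Matrix.mul_smul,
    one_mul, mul_one, h']

/-- trace criterion -/
theorem eq_one_of_conj_smul {A : Matrix (Fin 2) (Fin 2) F} (ht : A.trace ≠ 0) {a : F}
    {g : GL (Fin 2) F} (h : (g : Matrix (Fin 2) (Fin 2) F) * A = a • (A * g)) : a = 1 := by
  have h1 : (g : Matrix (Fin 2) (Fin 2) F) * A * ((g⁻¹ : GL (Fin 2) F) : Matrix _ _ F) =
      a • A := by
    rw [h, Matrix.smul_mul, mul_assoc, ← Units.val_mul, mul_inv_cancel, Units.val_one, mul_one]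
  have h2 : ((g : Matrix (Fin 2) (Fin 2) F) * A * ((g⁻¹ : GL (Fin 2) F) : Matrix _ _ F)).trace =
      A.trace := by
    rw [Matrix.trace_mul_comm, ← mul_assoc, ← Units.val_mul, inv_mul_cancel, Units.val_one,
      one_mul]
  rw [h1, Matrix.trace_smul, smul_eq_mul] at h2
  exact mul_right_cancel₀ ht (by rw [h2, one_mul])

end Reg

section Cubic

variable {K L : Type*} [Field K] [Field L] [Algebra K L] (C : Cub K L)

namespace Cub

include C in
theorem ell_inc {γ : Matrix (Fin 2) (Fin 2) K} (h : Ell γ) : Ell (inc (L := L) γ) := by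
  intro x hx
  rw [trace_inc, det_inc] at hx
  have hx1 := congrArg C.σ hx
  simp only [map_add, map_sub, map_mul, map_pow, map_zero, AlgEquiv.commutes] at hx1
  have hx2 := congrArg C.σ hx1
  simp only [map_add, map_sub, map_mul, map_pow, map_zero, AlgEquiv.commutes] at hx2
  by_cases h1 : C.σ x = x
  · obtain ⟨y, rfl⟩ := C.fixed x h1
    apply h y
    apply (algebraMap K L).injective
    simpa using hx
  · have e1 : (C.σ x - x) * (C.σ x + x - algebraMap K L γ.trace) = 0 := by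
      linear_combination hx1 - hx
    have e2 := (mul_eq_zero.mp e1).resolve_left (sub_ne_zero.mpr h1)
    have e3 := congrArg C.σ e2
    simp only [map_add, map_sub, map_zero, AlgEquiv.commutes] at e3
    have e4 : C.σ (C.σ x) = x := by linear_combination e3 - e2
    have e5 := C.cube x
    rw [e4] at e5
    exact h1 e5

theorem disc_inc {γ : Matrix (Fin 2) (Fin 2) K} : Disc (inc (L := L) γ) ↔ Disc γ := by
  unfold Disc
  rw [trace_inc, det_inc, not_iff_not]
  constructor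
  · intro h
    apply (algebraMap K L).injective
    simpa only [map_sub, map_mul, map_pow, map_ofNat, map_zero] using h
  · intro h
    have := congrArg (algebraMap K L) h
    simpa only [map_sub, map_mul, map_pow, map_ofNat, map_zero] using this

/-- Hilbert 90 for the centraliser of a regular element. -/
theorem h90_comm {γ : GL (Fin 2) K} (hγ : Disc (γ : Matrix (Fin 2) (Fin 2) K))
    {u : GL (Fin 2) L} (hc : u * Inc γ = Inc γ * u) (hu : C.N u = 1) :
    ∃ w : GL (Fin 2) L, w * Inc γ = Inc γ * w ∧ u * C.S w = w := by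
  by_cases hE : Ell (γ : Matrix (Fin 2) (Fin 2) K)
  · -- elliptic case
    have hE' := C.ell_inc hE
    obtain ⟨x, hx, hx'⟩ := C.h90_matrix (u := (u : Matrix (Fin 2) (Fin 2) L))
      (by rw [← coe_N, hu]; rfl)
    have hcm : (u : Matrix (Fin 2) (Fin 2) L) * inc (γ : Matrix (Fin 2) (Fin 2) K) =
        inc (L := L) (γ : Matrix (Fin 2) (Fin 2) K) * (u : Matrix (Fin 2) (Fin 2) L) := by
      have := congrArg (fun g : GL (Fin 2) L => (g : Matrix (Fin 2) (Fin 2) L)) hc
      simpa only [Units.val_mul, coe_Inc] using this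
    have hcm' : C.s (u : Matrix (Fin 2) (Fin 2) L) * inc (γ : Matrix (Fin 2) (Fin 2) K) =
        inc (γ : Matrix (Fin 2) (Fin 2) K) * C.s u := by
      have := congrArg C.s hcm
      rwa [map_mul, map_mul, s_inc] at this
    set w := x • (1 : Matrix (Fin 2) (Fin 2) L) + C.σ x • (u : Matrix (Fin 2) (Fin 2) L) +
      C.σ (C.σ x) • ((u : Matrix (Fin 2) (Fin 2) L) * C.s u) with hw
    have hcw : inc (γ : Matrix (Fin 2) (Fin 2) K) * w = w * inc (γ : Matrix (Fin 2) (Fin 2) K) := by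
      rw [hw]
      simp only [mul_add, add_mul, Matrix.smul_mul, Matrix.mul_smul, mul_one, one_mul, hcm]
      rw [mul_assoc, hcm', ← mul_assoc, ← mul_assoc, hcm]
    have hdet := hE'.det_ne_zero hcw hx
    refine ⟨Matrix.GeneralLinearGroup.mkOfDetNeZero w hdet, ?_, ?_⟩
    · exact Units.ext hcw.symm
    · exact Units.ext hx'
  · -- split case
    unfold Ell at hE
    push Not at hE
    obtain ⟨a, ha⟩ := hE
    have ht : (γ : Matrix (Fin 2) (Fin 2) K).trace =
      (!![a, 0; 0, (γ : Matrix (Fin 2) (Fin 2) K).trace - a] : Matrix (Fin 2) (Fin 2) K).trace := by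
      simp [Matrix.trace_fin_two]
    have hd : (γ : Matrix (Fin 2) (Fin 2) K).det =
      (!![a, 0; 0, (γ : Matrix (Fin 2) (Fin 2) K).trace - a] : Matrix (Fin 2) (Fin 2) K).det := by
      rw [Matrix.det_fin_two_of]
      linear_combination ha
    set b := (γ : Matrix (Fin 2) (Fin 2) K).trace - a with hb
    have hab : a ≠ b := by
      intro h
      apply hγ
      rw [hd, Matrix.det_fin_two_of]
      have : (γ : Matrix (Fin 2) (Fin 2) K).trace = a + b := by rw [hb]; ring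
      rw [this, ← h]
      ring
    have hns : ¬ IsSc (!![a, 0; 0, b] : Matrix (Fin 2) (Fin 2) K) := by
      rw [isSc_iff]
      simp [hab]
    obtain ⟨h, hh⟩ := exists_conj hγ.not_isSc hns ht hd
    -- pass to `u' = h⁻¹ u h`
    have hcu : ((Inc h)⁻¹ * u * Inc h : GL (Fin 2) L) * ((Inc h)⁻¹ * Inc γ * Inc h) =
        ((Inc h)⁻¹ * Inc γ * Inc h) * ((Inc h)⁻¹ * u * Inc h) := by
      have : ∀ x y z : GL (Fin 2) L, (z⁻¹ * x * z) * (z⁻¹ * y * z) = z⁻¹ * (x * y) * z := by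
        intro x y z; group
      rw [this, this, hc]
    have hD : (((Inc h)⁻¹ * Inc γ * Inc h : GL (Fin 2) L) : Matrix (Fin 2) (Fin 2) L) =
        inc (!![a, 0; 0, b] : Matrix (Fin 2) (Fin 2) K) := by
      rw [mul_assoc, ← map_mul, Units.val_mul, coe_Inc, Units.val_mul, hh, map_mul, ← mul_assoc,
        ← coe_Inc, ← Units.val_mul, inv_mul_cancel, Units.val_one, one_mul]
    obtain ⟨u', hu'⟩ : ∃ u' : GL (Fin 2) L, u' = (Inc h)⁻¹ * u * Inc h := ⟨_, rfl⟩
    obtain ⟨D, hDd⟩ : ∃ D : GL (Fin 2) L, D = (Inc h)⁻¹ * Inc γ * Inc h := ⟨_, rfl⟩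
    rw [← hDd] at hD
    rw [← hDd, ← hu'] at hcu
    have hcu' : (u' : Matrix (Fin 2) (Fin 2) L) * inc (!![a, 0; 0, b] : Matrix (Fin 2) (Fin 2) K) =
        inc (!![a, 0; 0, b] : Matrix (Fin 2) (Fin 2) K) * (u' : Matrix (Fin 2) (Fin 2) L) := by
      rw [← hD, ← Units.val_mul, ← Units.val_mul, hcu]
    have hab' : algebraMap K L a ≠ algebraMap K L b := (algebraMap K L).injective.ne hab
    have h01 : (u' : Matrix (Fin 2) (Fin 2) L) 0 1 = 0 := by
      have := congrFun (congrFun hcu' 0) 1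
      simp only [Matrix.mul_apply, Fin.sum_univ_two, inc_apply] at this
      simp at this
      have h2 : (algebraMap K L a - algebraMap K L b) * (u' : Matrix (Fin 2) (Fin 2) L) 0 1 = 0 := by
        linear_combination -this
      exact (mul_eq_zero.mp h2).resolve_left (sub_ne_zero.mpr hab')
    have h10 : (u' : Matrix (Fin 2) (Fin 2) L) 1 0 = 0 := by
      have := congrFun (congrFun hcu' 1) 0
      simp only [Matrix.mul_apply, Fin.sum_univ_two, inc_apply] at this
      simp at this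
      have h2 : (algebraMap K L a - algebraMap K L b) * (u' : Matrix (Fin 2) (Fin 2) L) 1 0 = 0 := by
        linear_combination this
      exact (mul_eq_zero.mp h2).resolve_left (sub_ne_zero.mpr hab')
    have hN' : C.nm (u' : Matrix (Fin 2) (Fin 2) L) = 1 := by
      have h1 : u' = (Inc h)⁻¹ * u * C.S (Inc h) := by rw [S_Inc, hu']
      rw [← coe_N, h1, N_tw, hu, mul_one, inv_mul_cancel, Units.val_one]
    have e0 : C.nL ((u' : Matrix (Fin 2) (Fin 2) L) 0 0) = 1 := by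
      have := congrFun (congrFun hN' 0) 0
      simp only [nm, Matrix.mul_apply, Fin.sum_univ_two, s_apply, h01, h10, map_zero] at this
      simpa [nL] using this
    have e1 : C.nL ((u' : Matrix (Fin 2) (Fin 2) L) 1 1) = 1 := by
      have := congrFun (congrFun hN' 1) 1
      simp only [nm, Matrix.mul_apply, Fin.sum_univ_two, s_apply, h01, h10, map_zero] at this
      simpa [nL] using this
    obtain ⟨w0, hw0, hw0'⟩ := C.h90 e0
    obtain ⟨w1, hw1, hw1'⟩ := C.h90 e1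
    have hWdet : (!![w0, 0; 0, w1] : Matrix (Fin 2) (Fin 2) L).det ≠ 0 := by
      rw [Matrix.det_fin_two_of]
      simpa using ⟨hw0, hw1⟩
    let W : GL (Fin 2) L := Matrix.GeneralLinearGroup.mkOfDetNeZero _ hWdet
    have hW : u' * C.S W = W := by
      apply Units.ext
      rw [Units.val_mul, coe_S]
      change (u' : Matrix (Fin 2) (Fin 2) L) * C.s !![w0, 0; 0, w1] = !![w0, 0; 0, w1]
      ext i j
      fin_cases i <;> fin_cases j <;>
        simp [Matrix.mul_apply, Fin.sum_univ_two, s_apply, h01, h10, hw0', hw1']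
    have hWD : W * D = D * W := by
      apply Units.ext
      rw [Units.val_mul, Units.val_mul, hD]
      change !![w0, 0; 0, w1] * _ = _ * !![w0, 0; 0, w1]
      ext i j
      fin_cases i <;> fin_cases j <;>
        simp [Matrix.mul_apply, Fin.sum_univ_two, inc_apply, mul_comm]
    refine ⟨Inc h * W * (Inc h)⁻¹, ?_, ?_⟩
    · have h3 : Inc γ = Inc h * D * (Inc h)⁻¹ := by rw [hDd]; group
      have h4 : ∀ x y z : GL (Fin 2) L, z * x * z⁻¹ * (z * y * z⁻¹) = z * (x * y) * z⁻¹ := by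
        intro x y z; group
      rw [h3, h4, h4, hWD]
    · have h3 : u = Inc h * u' * (Inc h)⁻¹ := by rw [hu']; group
      have h4 : ∀ x y z : GL (Fin 2) L, z * x * z⁻¹ * (z * y * z⁻¹) = z * (x * y) * z⁻¹ := by
        intro x y z; group
      rw [map_mul, map_mul, map_inv, S_Inc, h3, h4, hW]

/-! ### Uniqueness and existence of `δ` -/

/-- The centraliser of `γ` in `GL₂(L)`. -/
def Z (γ : GL (Fin 2) K) : Subgroup (GL (Fin 2) L) := Subgroup.centralizer {Inc γ}

theorem mem_Z {γ : GL (Fin 2) K} {g : GL (Fin 2) L} : g ∈ Z γ ↔ g * Inc γ = Inc γ * g := by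
  rw [Z, Subgroup.mem_centralizer_iff]
  constructor
  · intro h
    exact (h _ rfl).symm
  · rintro h x hx
    rw [Set.mem_singleton_iff] at hx
    rw [hx, h]

theorem Z_comm {γ : GL (Fin 2) K} (hγ : ¬ IsSc (γ : Matrix (Fin 2) (Fin 2) K))
    {g h : GL (Fin 2) L} (hg : g ∈ Z (L := L) γ) (hh : h ∈ Z (L := L) γ) : g * h = h * g := by
  rw [mem_Z] at hg hh
  apply Units.ext
  have e1 := congrArg (fun g : GL (Fin 2) L => (g : Matrix (Fin 2) (Fin 2) L)) hg
  have e2 := congrArg (fun g : GL (Fin 2) L => (g : Matrix (Fin 2) (Fin 2) L)) hh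
  simp only [Units.val_mul, coe_Inc] at e1 e2
  exact commute_of_commute (A := inc (γ : Matrix (Fin 2) (Fin 2) K)) (by rwa [isSc_inc])
    e1.symm e2.symm

theorem S_mem_Z {γ : GL (Fin 2) K} {g : GL (Fin 2) L} (hg : g ∈ Z (L := L) γ) :
    C.S g ∈ Z (L := L) γ := by
  rw [mem_Z] at hg ⊢
  have := congrArg C.S hg
  rwa [map_mul, map_mul, S_Inc] at this

/-- scalars -/
abbrev sc (c : Lˣ) : GL (Fin 2) L := Matrix.GeneralLinearGroup.scalar (Fin 2) c

theorem sc_mul (a b : Lˣ) : sc (a * b) = sc a * sc b := map_mul _ _ _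

theorem sc_inv (a : Lˣ) : sc a⁻¹ = (sc a)⁻¹ := map_inv _ _

theorem sc_div (a b : Lˣ) : sc (a / b) = sc a * (sc b)⁻¹ := by
  rw [div_eq_mul_inv, sc_mul, sc_inv]

theorem coe_sc (c : Lˣ) :
    ((sc c : GL (Fin 2) L) : Matrix (Fin 2) (Fin 2) L) = (c : L) • (1 : Matrix _ _ L) := by
  rw [Matrix.smul_one_eq_diagonal]
  rfl

theorem sc_comm (c : Lˣ) (g : GL (Fin 2) L) : sc c * g = g * sc c := by
  apply Units.ext
  rw [Units.val_mul, Units.val_mul, coe_sc]
  simp

theorem sc_mem_Z (γ : GL (Fin 2) K) (c : Lˣ) : sc c ∈ Z (L := L) γ := by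
  rw [mem_Z, sc_comm]

/-- the action of `σ` on `Lˣ` -/
def σu : Lˣ →* Lˣ := Units.map (C.σ : L →* L)

theorem S_sc (c : Lˣ) : C.S (sc c) = sc (C.σu c) := Matrix.GeneralLinearGroup.map_scalar _ _

theorem N_mem_Z {γ : GL (Fin 2) K} {g : GL (Fin 2) L} (hg : g ∈ Z (L := L) γ) :
    C.N g ∈ Z (L := L) γ :=
  mul_mem (mul_mem hg (C.S_mem_Z hg)) (C.S_mem_Z (C.S_mem_Z hg))

theorem det_sc (c : Lˣ) : ((sc c : GL (Fin 2) L) : Matrix (Fin 2) (Fin 2) L).det = (c : L) ^ 2 := by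
  rw [coe_sc]
  simp

theorem N_mul {γ : GL (Fin 2) K} (hγ : ¬ IsSc (γ : Matrix (Fin 2) (Fin 2) K))
    {g h : GL (Fin 2) L} (hg : g ∈ Z (L := L) γ) (hh : h ∈ Z (L := L) γ) :
    C.N (g * h) = C.N g * C.N h := by
  apply Units.ext
  rw [Units.val_mul, coe_N, coe_N, coe_N, Units.val_mul]
  apply C.nm_mul
  · have := congrArg (fun g : GL (Fin 2) L => (g : Matrix (Fin 2) (Fin 2) L))
      (Z_comm hγ (C.S_mem_Z hg) hh)
    simpa only [Units.val_mul, coe_S] using this
  · have := congrArg (fun g : GL (Fin 2) L => (g : Matrix (Fin 2) (Fin 2) L))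
      (Z_comm hγ (C.S_mem_Z (C.S_mem_Z hg)) hh)
    simpa only [Units.val_mul, coe_S] using this

theorem N_one : C.N 1 = 1 := by simp [N]

theorem N_inv {γ : GL (Fin 2) K} (hγ : ¬ IsSc (γ : Matrix (Fin 2) (Fin 2) K))
    {g : GL (Fin 2) L} (hg : g ∈ Z (L := L) γ) : C.N g⁻¹ = (C.N g)⁻¹ := by
  rw [eq_inv_iff_mul_eq_one, ← C.N_mul hγ (inv_mem hg) hg, inv_mul_cancel, N_one]

/-- the norm on `Lˣ`. -/
def nu : Lˣ →* Lˣ where
  toFun c := c * C.σu c * C.σu (C.σu c)
  map_one' := by simp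
  map_mul' a b := by
    simp only [map_mul, mul_assoc, mul_left_comm]

theorem coe_nu (c : Lˣ) : ((C.nu c : Lˣ) : L) = C.nL c := rfl

theorem N_sc (c : Lˣ) : C.N (sc c) = sc (C.nu c) := by
  simp only [N, S_sc, ← map_mul]
  rfl

theorem det_S (g : GL (Fin 2) L) :
    Matrix.GeneralLinearGroup.det (C.S g) = C.σu (Matrix.GeneralLinearGroup.det g) :=
  Units.ext (C.s_det _)

theorem det_N (g : GL (Fin 2) L) :
    Matrix.GeneralLinearGroup.det (C.N g) = C.nu (Matrix.GeneralLinearGroup.det g) := by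
  simp only [N, map_mul, det_S]
  rfl

theorem det_sc' (c : Lˣ) : Matrix.GeneralLinearGroup.det (sc c) = c * c := by
  apply Units.ext
  rw [Units.val_mul, ← sq]
  exact det_sc c

/-- `u²/det u` has norm one if `N u` is scalar. -/
theorem N_sq_div_det {γ : GL (Fin 2) K} (hγ : ¬ IsSc (γ : Matrix (Fin 2) (Fin 2) K))
    {u : GL (Fin 2) L} (hu : u ∈ Z (L := L) γ) {c : Lˣ} (hc : C.N u = sc c) :
    C.N (u * u * (sc (Matrix.GeneralLinearGroup.det u))⁻¹) = 1 := by
  rw [C.N_mul hγ (mul_mem hu hu) (inv_mem (sc_mem_Z _ _)), C.N_mul hγ hu hu,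
    C.N_inv hγ (sc_mem_Z _ _), N_sc, ← det_N, hc, det_sc', ← map_mul, mul_inv_cancel]

/-- **Uniqueness**: elements of `E_L^*` with proportional norms are `σ`-conjugate up to scalars,
by an element of `E_L^*`. -/
theorem unique {γ : GL (Fin 2) K} (hγ : Disc (γ : Matrix (Fin 2) (Fin 2) K))
    {δ δ' : GL (Fin 2) L} (h : δ ∈ Z (L := L) γ) (h' : δ' ∈ Z (L := L) γ) {c : Lˣ}
    (hn : C.N δ' = sc c * C.N δ) :
    ∃ (t : GL (Fin 2) L) (b : Lˣ), t ∈ Z (L := L) γ ∧ δ' * C.S t = sc b * (t * δ) := by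
  have hns := hγ.not_isSc
  let T : Type _ := Z (L := L) γ
  letI : CommGroup T :=
    { (inferInstance : Group (Z (L := L) γ)) with
      mul_comm := fun a b => Subtype.ext (Z_comm hns a.2 b.2) }
  let τ : T →* T :=
    { toFun := fun g => ⟨C.S g.1, C.S_mem_Z g.2⟩
      map_one' := Subtype.ext (map_one _)
      map_mul' := fun a b => Subtype.ext (map_mul _ _ _) }
  have hN : ∀ g : T, (g * τ g * τ (τ g)).1 = C.N g.1 := fun g => rfl
  have hu : δ' * δ⁻¹ ∈ Z (L := L) γ := mul_mem h' (inv_mem h)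
  have hNu : C.N (δ' * δ⁻¹) = sc c := by
    rw [C.N_mul hns h' (inv_mem h), C.N_inv hns h, hn, mul_inv_cancel_right]
  let d : Lˣ := Matrix.GeneralLinearGroup.det (δ' * δ⁻¹)
  obtain ⟨t, ht⟩ := abstract_unique τ
    (fun u hu => by
      obtain ⟨w, hw, hw'⟩ := C.h90_comm hγ (u := u.1) (mem_Z.1 u.2)
        (by rw [← hN, hu]; rfl)
      exact ⟨⟨w, mem_Z.2 hw⟩, Subtype.ext hw'⟩)
    (u := ⟨δ' * δ⁻¹, hu⟩) (c := ⟨sc c, sc_mem_Z _ _⟩) (z := ⟨sc d, sc_mem_Z _ _⟩)
    (u1 := ⟨δ' * δ⁻¹ * (δ' * δ⁻¹) * (sc d)⁻¹,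
      mul_mem (mul_mem hu hu) (inv_mem (sc_mem_Z _ _))⟩)
    (Subtype.ext hNu)
    (Subtype.ext (by
      change δ' * δ⁻¹ * (δ' * δ⁻¹) = sc d * (δ' * δ⁻¹ * (δ' * δ⁻¹) * (sc d)⁻¹)
      rw [sc_comm, inv_mul_cancel_right]))
    (Subtype.ext (C.N_sq_div_det hns hu hNu))
  refine ⟨t.1, c / d, t.2, ?_⟩
  have ht' : δ' * δ⁻¹ * C.S t.1 = sc c * (sc d)⁻¹ * t.1 := congrArg Subtype.val ht
  have h1 : δ' * C.S t.1 = δ' * δ⁻¹ * C.S t.1 * δ := by
    rw [mul_assoc (δ' * δ⁻¹), Z_comm hns (C.S_mem_Z t.2) h]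
    group
  rw [h1, ht', sc_div, mul_assoc]

/-- the coboundary identity read backwards: if `δ' S(t) = b t δ` then the norms agree. -/
theorem N_eq_of_tw {δ δ' t : GL (Fin 2) L} {b : Lˣ} (h : δ' * C.S t = sc b * (t * δ)) :
    C.N δ' * t = sc (C.nu b) * (t * C.N δ) := by
  have h1 : δ' = sc b * (t * δ * (C.S t)⁻¹) := by
    rw [← mul_assoc, ← h, mul_inv_cancel_right]
  have h2 : C.S δ' * C.S (C.S t) = sc (C.σu b) * (C.S t * C.S δ) := by
    rw [← map_mul, h, map_mul, map_mul, S_sc]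
  have h3 : C.S (C.S δ') * t = sc (C.σu (C.σu b)) * (C.S (C.S t) * C.S (C.S δ)) := by
    have := congrArg C.S h2
    rwa [map_mul, map_mul, map_mul, S_cube, S_sc] at this
  calc C.N δ' * t = δ' * C.S δ' * (C.S (C.S δ') * t) := by simp only [N, mul_assoc]
    _ = δ' * C.S δ' * (sc (C.σu (C.σu b)) * (C.S (C.S t) * C.S (C.S δ))) := by rw [h3]
    _ = sc (C.σu (C.σu b)) * (δ' * (C.S δ' * C.S (C.S t)) * C.S (C.S δ)) := by
        rw [← mul_assoc (δ' * C.S δ'), ← sc_comm]; simp only [mul_assoc]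
    _ = sc (C.σu (C.σu b)) * (δ' * (sc (C.σu b) * (C.S t * C.S δ)) * C.S (C.S δ)) := by rw [h2]
    _ = sc (C.σu (C.σu b)) * (sc (C.σu b) * ((δ' * C.S t) * C.S δ * C.S (C.S δ))) := by
        rw [← mul_assoc δ', ← sc_comm]; simp only [mul_assoc]
    _ = sc (C.σu (C.σu b)) * (sc (C.σu b) * (sc b * (t * δ) * C.S δ * C.S (C.S δ))) := by rw [h]
    _ = sc (C.nu b) * (t * C.N δ) := by
        have : sc (C.nu b) = sc (C.σu (C.σu b)) * (sc (C.σu b) * sc b) := by
          rw [← map_mul, ← map_mul]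
          congr 1
          change b * C.σu b * C.σu (C.σu b) = _
          rw [mul_comm, mul_comm b]
        rw [this]
        simp only [N, mul_assoc]

/-- **Existence**: `γ` is a norm up to scalars iff `γ · adj(γ)⁻¹ = γ²/det γ` is a norm from
`E_L^*`. -/
theorem exists_iff {γ : GL (Fin 2) K} (hγ : ¬ IsSc (γ : Matrix (Fin 2) (Fin 2) K)) :
    (∃ δ ∈ Z (L := L) γ, ∃ c : Lˣ, C.N δ = sc c * Inc γ) ↔
      ∃ z ∈ Z (L := L) γ,
        C.N z = Inc (γ * γ) * (sc (Matrix.GeneralLinearGroup.det (Inc γ)))⁻¹ := by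
  have hγZ : Inc γ ∈ Z (L := L) γ := mem_Z.2 rfl
  have hNγ : C.N (Inc γ) = Inc γ * Inc γ * Inc γ := by simp only [N, S_Inc]
  constructor
  · rintro ⟨δ, hδ, c, hc⟩
    refine ⟨δ * δ * (sc (Matrix.GeneralLinearGroup.det δ))⁻¹,
      mul_mem (mul_mem hδ hδ) (inv_mem (sc_mem_Z _ _)), ?_⟩
    rw [C.N_mul hγ (mul_mem hδ hδ) (inv_mem (sc_mem_Z _ _)), C.N_mul hγ hδ hδ,
      C.N_inv hγ (sc_mem_Z _ _), N_sc, ← det_N, hc, map_mul, det_sc', map_mul, sc_mul, sc_mul]
    have h1 : sc c * Inc γ * (sc c * Inc γ) = Inc γ * Inc γ * (sc c * sc c) := by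
      rw [sc_comm c (Inc γ)]
      calc Inc γ * sc c * (Inc γ * sc c) = Inc γ * (sc c * Inc γ) * sc c := by
            simp only [mul_assoc]
        _ = _ := by rw [sc_comm]; simp only [mul_assoc]
    rw [h1, _root_.mul_inv_rev, mul_assoc, ← sc_mul, ← sc_inv, ← sc_inv, ← sc_mul, ← sc_mul]
    congr 2
    rw [mul_comm (Matrix.GeneralLinearGroup.det (Inc γ))⁻¹, mul_inv_cancel_left]
  · rintro ⟨z, hz, hz'⟩
    refine ⟨Inc γ * z⁻¹, mul_mem hγZ (inv_mem hz), Matrix.GeneralLinearGroup.det (Inc γ), ?_⟩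
    rw [C.N_mul hγ hγZ (inv_mem hz), C.N_inv hγ hz, hz', hNγ, map_mul]
    rw [_root_.mul_inv_rev, inv_inv, ← mul_assoc, ← sc_comm]
    group

end Cub

end Cubic

end Fermat.Agent.LT.D
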