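import Mathlib
import Fermat.Agent.LT.D.Classes

/-!
# Norm map on (twisted) conjugacy classes: `PGL₂` level
-/

set_option autoImplicit false

open Matrix

namespace Fermat.Agent.LT.D

/-- `PGL₂(F)` (same as `Fermat.LT.PG`) -/
abbrev PG (F : Type*) [Field F] : Type _ := Matrix.ProjGenLinGroup (Fin 2) F

section functorial

variable {F F' : Type*} [Field F] [Field F']

/-- functoriality of `PGL₂` -/
def pmap (f : F →+* F') : PG F →* PG F' :=
  QuotientGroup.map _ _ (Matrix.GeneralLinearGroup.map f) (by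
    intro g hg
    rw [Matrix.GeneralLinearGroup.center_eq_range_scalar] at hg
    obtain ⟨c, rfl⟩ := hg
    rw [Subgroup.mem_comap, Matrix.GeneralLinearGroup.center_eq_range_scalar]
    exact ⟨_, (Matrix.GeneralLinearGroup.map_scalar f c).symm⟩)

/-- the class of a matrix -/
abbrev pmk (g : GL (Fin 2) F) : PG F := Matrix.ProjGenLinGroup.mk g

theorem pmk_surj (x : PG F) : ∃ g : GL (Fin 2) F, pmk g = x :=
  Matrix.ProjGenLinGroup.mk_surjective x

theorem pmk_mul (g h : GL (Fin 2) F) : pmk (g * h) = pmk g * pmk h := map_mul _ _ _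

theorem pmk_inv (g : GL (Fin 2) F) : pmk g⁻¹ = (pmk g)⁻¹ := map_inv _ _

theorem pmk_one : pmk (1 : GL (Fin 2) F) = 1 := map_one _

theorem pmap_pmk (f : F →+* F') (g : GL (Fin 2) F) :
    pmap f (pmk g) = pmk (Matrix.GeneralLinearGroup.map f g) := rfl

theorem pmk_eq_iff {g h : GL (Fin 2) F} : pmk g = pmk h ↔ ∃ c : Fˣ, g = Cub.sc c * h := by
  rw [Matrix.ProjGenLinGroup.mk_eq_mk_iff]
  constructor
  · rintro ⟨u, hu⟩
    refine ⟨u⁻¹, ?_⟩
    rw [← hu, Cub.sc_comm, Cub.sc_inv, mul_inv_cancel_right]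
  · rintro ⟨c, rfl⟩
    refine ⟨c⁻¹, ?_⟩
    change Cub.sc c * h * Cub.sc c⁻¹ = h
    rw [← Cub.sc_comm, ← mul_assoc, ← Cub.sc_mul, inv_mul_cancel]
    simp

theorem pmk_sc (c : Fˣ) : pmk (Cub.sc c) = 1 := Matrix.ProjGenLinGroup.mk_scalar c

/-- regular elements with non zero trace -/
def RegP (x : PG F) : Prop :=
  ∃ g : GL (Fin 2) F, pmk g = x ∧ (g : Matrix (Fin 2) (Fin 2) F).trace ≠ 0 ∧
    Disc (g : Matrix (Fin 2) (Fin 2) F)

theorem sc_mul_coe (c : Fˣ) (g : GL (Fin 2) F) :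
    ((Cub.sc c * g : GL (Fin 2) F) : Matrix (Fin 2) (Fin 2) F) = (c : F) • (g : Matrix _ _ F) := by
  rw [Units.val_mul, Cub.coe_sc, Matrix.smul_mul, one_mul]

theorem regP_pmk {g : GL (Fin 2) F} : RegP (pmk g) ↔
    (g : Matrix (Fin 2) (Fin 2) F).trace ≠ 0 ∧ Disc (g : Matrix (Fin 2) (Fin 2) F) := by
  constructor
  · rintro ⟨h, hh, ht, hd⟩
    obtain ⟨c, rfl⟩ := pmk_eq_iff.mp hh
    rw [sc_mul_coe, Matrix.trace_smul] at ht
    unfold Disc at hd
    rw [sc_mul_coe, Matrix.trace_smul, Matrix.det_smul] at hd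
    refine ⟨fun h0 => ht (by rw [h0, smul_zero]), fun h0 => hd ?_⟩
    simp only [smul_eq_mul, Fintype.card_fin]
    linear_combination (c : F) ^ 2 * h0
  · rintro ⟨h1, h2⟩
    exact ⟨g, rfl, h1, h2⟩

/-- Elements of `PGL₂` commuting with a regular element of non zero trace lift to commuting
matrices. -/
theorem commute_lift {g A : GL (Fin 2) F} (ht : (A : Matrix (Fin 2) (Fin 2) F).trace ≠ 0)
    (h : pmk g * pmk A = pmk A * pmk g) : g * A = A * g := by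
  rw [← pmk_mul, ← pmk_mul, pmk_eq_iff] at h
  obtain ⟨c, hc⟩ := h
  have h1 : (g : Matrix (Fin 2) (Fin 2) F) * A = (c : F) • ((A : Matrix (Fin 2) (Fin 2) F) * g) := by
    rw [← Units.val_mul, hc, sc_mul_coe, Units.val_mul]
  have h2 := eq_one_of_conj_smul ht h1
  apply Units.ext
  rw [Units.val_mul, Units.val_mul, h1, h2, one_smul]

end functorial

section Cubic

variable {K L : Type*} [Field K] [Field L] [Algebra K L] (C : Cub K L)

namespace Cub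

/-- `σ` on `PGL₂(L)` -/
abbrev pS : PG L →* PG L := pmap (C.σ : L →+* L)

/-- `PGL₂(K) → PGL₂(L)` -/
abbrev pI : PG K →* PG L := pmap (algebraMap K L)

theorem pS_pmk (g : GL (Fin 2) L) : C.pS (pmk g) = pmk (C.S g) := rfl

theorem pI_pmk (g : GL (Fin 2) K) : pI (L := L) (pmk g) = pmk (Inc g) := rfl

theorem pS_pI (x : PG K) : C.pS (pI x) = pI x := by
  obtain ⟨g, rfl⟩ := pmk_surj x
  rw [pI_pmk, pS_pmk, S_Inc]

theorem pS_cube (x : PG L) : C.pS (C.pS (C.pS x)) = x := by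
  obtain ⟨g, rfl⟩ := pmk_surj x
  rw [pS_pmk, pS_pmk, pS_pmk, S_cube]

/-- `PGL₂(K) → PGL₂(L)` is injective -/
theorem pI_injective : Function.Injective (pI : PG K → PG L) := by
  intro x y h
  obtain ⟨g, rfl⟩ := pmk_surj x
  obtain ⟨g', rfl⟩ := pmk_surj y
  have h1 : pI (L := L) (pmk (g * g'⁻¹)) = 1 := by
    rw [pmk_mul, pmk_inv, map_mul, map_inv, mul_inv_eq_one]
    exact h
  rw [pI_pmk, ← pmk_one, pmk_eq_iff] at h1
  obtain ⟨c, hc⟩ := h1
  have h2 : IsSc (inc (L := L) ((g * g'⁻¹ : GL (Fin 2) K) : Matrix (Fin 2) (Fin 2) K)) :=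
    ⟨c, by rw [← coe_Inc, hc, mul_one, coe_sc]⟩
  rw [isSc_inc] at h2
  obtain ⟨d, hd⟩ := h2
  have hd0 : d ≠ 0 := by
    rintro rfl
    have := (g * g'⁻¹ : GL (Fin 2) K).isUnit
    rw [hd, zero_smul] at this
    exact not_isUnit_zero this
  change pmk g = pmk g'
  rw [pmk_eq_iff]
  refine ⟨Units.mk0 d hd0, ?_⟩
  have h3 : g * g'⁻¹ = sc (Units.mk0 d hd0) := by
    apply Units.ext
    rw [hd, coe_sc, Units.val_mk0]
  rw [← h3, inv_mul_cancel_right]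

/-- `PGL₂(L)^σ = PGL₂(K)` -/
theorem exists_pI {x : PG L} (h : C.pS x = x) : ∃ y : PG K, pI y = x := by
  obtain ⟨g, rfl⟩ := pmk_surj x
  rw [pS_pmk, pmk_eq_iff] at h
  obtain ⟨c, hc⟩ := h
  have h1 : C.nL (c : L) = 1 := by
    have h2 : C.S (C.S (C.S g)) = sc (C.nu c) * g := by
      rw [hc, map_mul, hc, map_mul, map_mul, hc, S_sc, S_sc, ← mul_assoc, ← mul_assoc, ← sc_mul,
        ← sc_mul]
      congr 2
      change _ = c * C.σu c * C.σu (C.σu c)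
      simp only [mul_comm, mul_left_comm]
    rw [S_cube] at h2
    have h3 : sc (C.nu c) = 1 := by
      have := congrArg (fun x => x * g⁻¹) h2
      simpa using this.symm
    have h4 := congrArg (fun x : GL (Fin 2) L => (x : Matrix (Fin 2) (Fin 2) L) 0 0) h3
    simpa [coe_nu, coe_sc] using h4
  obtain ⟨w, hw, hw'⟩ := C.h90 h1
  have h5 : C.S (sc (Units.mk0 w hw) * g) = sc (Units.mk0 w hw) * g := by
    rw [map_mul, hc, S_sc, ← mul_assoc, ← sc_mul]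
    congr 2
    apply Units.ext
    change C.σ w * c = w
    rw [mul_comm, hw']
  have h6 : C.s ((sc (Units.mk0 w hw) * g : GL (Fin 2) L) : Matrix (Fin 2) (Fin 2) L) =
      (sc (Units.mk0 w hw) * g : GL (Fin 2) L) := by
    rw [← coe_S, h5]
  obtain ⟨B, hB⟩ := C.exists_inc h6
  have hdet : B.det ≠ 0 := by
    intro h0
    have h7 := det_inc (L := L) B
    rw [hB, h0, map_zero] at h7
    have := (Matrix.isUnit_iff_isUnit_det _).mp (sc (Units.mk0 w hw) * g : GL (Fin 2) L).isUnit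
    rw [h7] at this
    exact not_isUnit_zero this
  refine ⟨pmk (Matrix.GeneralLinearGroup.mkOfDetNeZero B hdet), ?_⟩
  rw [pI_pmk]
  have h8 : (Inc (Matrix.GeneralLinearGroup.mkOfDetNeZero B hdet) : GL (Fin 2) L) =
      sc (Units.mk0 w hw) * g := Units.ext hB
  rw [h8, pmk_mul, pmk_sc, one_mul]

/-- The norm `δ σ(δ) σ²(δ)` on `PGL₂(L)`. -/
def pN (x : PG L) : PG L := x * C.pS x * C.pS (C.pS x)

theorem pN_pmk (g : GL (Fin 2) L) : C.pN (pmk g) = pmk (C.N g) := rfl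

theorem pN_tw (g δ : PG L) : C.pN (g⁻¹ * δ * C.pS g) = g⁻¹ * C.pN δ * g := by
  simp only [pN, map_mul, map_inv, pS_cube]
  group

theorem mul_pS_pN (δ : PG L) : δ * C.pS (C.pN δ) = C.pN δ * δ := by
  simp only [pN, map_mul, pS_cube, mul_assoc]

theorem regP_pI {γ : PG K} : RegP (pI (L := L) γ) ↔ RegP γ := by
  obtain ⟨g, rfl⟩ := pmk_surj γ
  rw [pI_pmk, regP_pmk, regP_pmk, coe_Inc, disc_inc, trace_inc, Ne, Ne, map_eq_zero]

theorem regP_conj {F : Type*} [Field F] {x g : PG F} (h : RegP x) : RegP (g⁻¹ * x * g) := by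
  obtain ⟨x, rfl⟩ := pmk_surj x
  obtain ⟨g, rfl⟩ := pmk_surj g
  rw [regP_pmk] at h
  rw [← pmk_inv, ← pmk_mul, ← pmk_mul, regP_pmk]
  unfold Disc at *
  have ht : ((g⁻¹ * x * g : GL (Fin 2) F) : Matrix (Fin 2) (Fin 2) F).trace =
      (x : Matrix (Fin 2) (Fin 2) F).trace := by
    rw [Units.val_mul, Matrix.trace_mul_comm, ← Units.val_mul, ← mul_assoc, mul_inv_cancel,
      one_mul]
  have hd : ((g⁻¹ * x * g : GL (Fin 2) F) : Matrix (Fin 2) (Fin 2) F).det =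
      (x : Matrix (Fin 2) (Fin 2) F).det := by
    rw [Units.val_mul, Matrix.det_mul, mul_comm, ← Matrix.det_mul, ← Units.val_mul, ← mul_assoc,
      mul_inv_cancel, one_mul]
  rw [ht, hd]
  exact h

/-- Every `δ` whose norm is regular is `σ`-conjugate to a `δ'` with norm in `PGL₂(K)`. -/
theorem exists_norm_form {δ : PG L} (h : RegP (C.pN δ)) :
    ∃ (g : PG L) (γ : PG K), RegP γ ∧ C.pN (g⁻¹ * δ * C.pS g) = pI γ := by
  obtain ⟨δ, rfl⟩ := pmk_surj δ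
  rw [pN_pmk, regP_pmk] at h
  obtain ⟨ht, hd⟩ := h
  have h1 : (δ : Matrix (Fin 2) (Fin 2) L) * C.s (C.N δ) = C.N δ * δ := by
    rw [← coe_S, ← Units.val_mul, mul_S_N, Units.val_mul]
  have h2 : C.s (C.N δ) = ((δ⁻¹ : GL (Fin 2) L) : Matrix (Fin 2) (Fin 2) L) * (C.N δ * δ) := by
    rw [← h1, ← mul_assoc, ← Units.val_mul, inv_mul_cancel, Units.val_one, one_mul]
  have htr : C.σ ((C.N δ : GL (Fin 2) L) : Matrix (Fin 2) (Fin 2) L).trace =
      ((C.N δ : GL (Fin 2) L) : Matrix (Fin 2) (Fin 2) L).trace := by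
    rw [← s_trace, h2, Matrix.trace_mul_comm, mul_assoc, ← Units.val_mul, mul_inv_cancel,
      Units.val_one, mul_one]
  have hdet : C.σ ((C.N δ : GL (Fin 2) L) : Matrix (Fin 2) (Fin 2) L).det =
      ((C.N δ : GL (Fin 2) L) : Matrix (Fin 2) (Fin 2) L).det := by
    rw [← s_det, h2, Matrix.det_mul, Matrix.det_mul, mul_comm, mul_assoc, ← Matrix.det_mul,
      ← Units.val_mul, mul_inv_cancel, Units.val_one, Matrix.det_one, mul_one]
  obtain ⟨t, ht'⟩ := C.fixed _ htr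
  obtain ⟨d, hd'⟩ := C.fixed _ hdet
  obtain ⟨g, hg⟩ := exists_conj_comp hd.not_isSc
  rw [← ht', ← hd'] at hg
  have hd0 : (comp t d).det ≠ 0 := by
    rw [det_comp]
    rintro rfl
    rw [map_zero] at hd'
    have := (Matrix.isUnit_iff_isUnit_det _).mp (C.N δ).isUnit
    rw [← hd'] at this
    exact not_isUnit_zero this
  let γ : GL (Fin 2) K := Matrix.GeneralLinearGroup.mkOfDetNeZero (comp t d) hd0
  have hγ : (Inc γ : GL (Fin 2) L) = g⁻¹ * C.N δ * g := by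
    rw [mul_assoc, eq_inv_mul_iff_mul_eq]
    apply Units.ext
    rw [Units.val_mul, Units.val_mul, hg]
    congr 1
    ext i j
    change algebraMap K L (comp t d i j) = comp _ _ i j
    fin_cases i <;> fin_cases j <;> simp [comp]
  refine ⟨pmk g, pmk γ, ?_, ?_⟩
  · rw [← regP_pI (L := L), pI_pmk, hγ, pmk_mul, pmk_mul, pmk_inv]
    apply regP_conj
    exact regP_pmk.mpr ⟨ht, hd⟩
  · rw [pN_tw, pI_pmk, hγ, pmk_mul, pmk_mul, pmk_inv]
    rfl

/-- `PGL₂(L)`-conjugate regular elements of `PGL₂(K)` are `PGL₂(K)`-conjugate. -/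
theorem exists_conj_of_conj {γ γ' : PG K} (hγ : RegP γ) {g : PG L}
    (h : pI γ' = g⁻¹ * pI γ * g) : ∃ k : PG K, γ' = k⁻¹ * γ * k := by
  obtain ⟨γ, rfl⟩ := pmk_surj γ
  obtain ⟨γ', rfl⟩ := pmk_surj γ'
  obtain ⟨g, rfl⟩ := pmk_surj g
  rw [regP_pmk] at hγ
  have h1 : pmk (Inc γ' : GL (Fin 2) L) = pmk (g⁻¹ * Inc γ * g) := by
    rw [pmk_mul, pmk_mul, pmk_inv]; exact h
  rw [pmk_eq_iff] at h1
  obtain ⟨c, hc⟩ := h1
  have hc' : inc (L := L) (γ' : Matrix (Fin 2) (Fin 2) K) =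
      (c : L) • ((g⁻¹ * Inc γ * g : GL (Fin 2) L) : Matrix (Fin 2) (Fin 2) L) := by
    rw [← coe_Inc, hc, sc_mul_coe]
  have ht : ((g⁻¹ * Inc γ * g : GL (Fin 2) L) : Matrix (Fin 2) (Fin 2) L).trace =
      algebraMap K L (γ : Matrix (Fin 2) (Fin 2) K).trace := by
    rw [Units.val_mul, Matrix.trace_mul_comm, ← Units.val_mul, ← mul_assoc, mul_inv_cancel,
      one_mul, coe_Inc, trace_inc]
  have hd : ((g⁻¹ * Inc γ * g : GL (Fin 2) L) : Matrix (Fin 2) (Fin 2) L).det =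
      algebraMap K L (γ : Matrix (Fin 2) (Fin 2) K).det := by
    rw [Units.val_mul, Matrix.det_mul, mul_comm, ← Matrix.det_mul, ← Units.val_mul, ← mul_assoc,
      mul_inv_cancel, one_mul, coe_Inc, det_inc]
  have ht1 := congrArg Matrix.trace hc'
  rw [trace_inc, Matrix.trace_smul, ht, smul_eq_mul] at ht1
  have hd1 := congrArg Matrix.det hc'
  rw [det_inc, Matrix.det_smul, hd, Fintype.card_fin] at hd1
  -- `c ∈ K`
  have hcK : algebraMap K L ((γ' : Matrix (Fin 2) (Fin 2) K).trace /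
      (γ : Matrix (Fin 2) (Fin 2) K).trace) = c := by
    rw [map_div₀, ht1, mul_div_cancel_right₀]
    rw [Ne, map_eq_zero]
    exact hγ.1
  set e := (γ' : Matrix (Fin 2) (Fin 2) K).trace / (γ : Matrix (Fin 2) (Fin 2) K).trace with he
  have he0 : e ≠ 0 := by
    intro h0
    rw [h0, map_zero] at hcK
    exact c.ne_zero hcK.symm
  have ht2 : (γ' : Matrix (Fin 2) (Fin 2) K).trace =
      (e • (γ : Matrix (Fin 2) (Fin 2) K)).trace := by
    rw [Matrix.trace_smul, smul_eq_mul, he, div_mul_cancel₀ _ hγ.1]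
  have hd2 : (γ' : Matrix (Fin 2) (Fin 2) K).det =
      (e • (γ : Matrix (Fin 2) (Fin 2) K)).det := by
    apply (algebraMap K L).injective
    rw [hd1, Matrix.det_smul, Fintype.card_fin, map_mul, map_pow, hcK]
  have hns : ¬ IsSc (e • (γ : Matrix (Fin 2) (Fin 2) K)) := by
    rintro ⟨f, hf⟩
    apply hγ.2.not_isSc
    refine ⟨e⁻¹ * f, ?_⟩
    rw [← smul_smul, ← hf, smul_smul, inv_mul_cancel₀ he0, one_smul]
  have hns' : ¬ IsSc (γ' : Matrix (Fin 2) (Fin 2) K) := by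
    have hD : Disc (γ' : Matrix (Fin 2) (Fin 2) K) := by
      unfold Disc
      rw [ht2, hd2, Matrix.trace_smul, Matrix.det_smul, Fintype.card_fin, smul_eq_mul]
      have h3 : (e * (γ : Matrix (Fin 2) (Fin 2) K).trace) ^ 2 -
          4 * (e ^ 2 * (γ : Matrix (Fin 2) (Fin 2) K).det) = e ^ 2 *
          ((γ : Matrix (Fin 2) (Fin 2) K).trace ^ 2 - 4 * (γ : Matrix (Fin 2) (Fin 2) K).det) := by
        ring
      rw [h3]
      exact mul_ne_zero (pow_ne_zero _ he0) hγ.2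
    exact hD.not_isSc
  obtain ⟨k, hk⟩ := exists_conj hns' hns ht2 hd2
  refine ⟨pmk k⁻¹, ?_⟩
  rw [← pmk_inv, ← pmk_mul, ← pmk_mul, inv_inv, pmk_eq_iff]
  refine ⟨Units.mk0 e he0, ?_⟩
  rw [← mul_assoc, eq_mul_inv_iff_mul_eq]
  apply Units.ext
  rw [Units.val_mul, hk, ← mul_assoc, sc_comm, mul_assoc, Units.val_mul, sc_mul_coe,
    Units.val_mk0]

/-- the key lemma: if `N δ = γ` in `PGL₂(L)` then a lift of `δ` lies in `E_L^*`. -/
theorem lift_mem_Z {γ : GL (Fin 2) K} (ht : (γ : Matrix (Fin 2) (Fin 2) K).trace ≠ 0)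
    {δ : GL (Fin 2) L} (h : C.pN (pmk δ) = pI (pmk γ)) :
    δ ∈ Z (L := L) γ ∧ ∃ c : Lˣ, C.N δ = sc c * Inc γ := by
  have ht' : (Inc γ : GL (Fin 2) L).1.trace ≠ 0 := by
    rw [coe_Inc, trace_inc, Ne, map_eq_zero]
    exact ht
  have h1 : pmk δ * pmk (Inc γ : GL (Fin 2) L) = pmk (Inc γ : GL (Fin 2) L) * pmk δ := by
    have h2 := C.mul_pS_pN (pmk δ)
    rw [h, pS_pI] at h2
    exact h2
  refine ⟨mem_Z.mpr (commute_lift ht' h1), ?_⟩
  exact pmk_eq_iff.mp h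

/-- **Uniqueness of `δ`**. -/
theorem pN_unique {γ : PG K} (hγ : RegP γ) {δ δ' : PG L} (h : C.pN δ = pI γ)
    (h' : C.pN δ' = pI γ) : ∃ t : PG L, t * pI γ = pI γ * t ∧ δ' = t * δ * (C.pS t)⁻¹ := by
  obtain ⟨γ, rfl⟩ := pmk_surj γ
  obtain ⟨δ, rfl⟩ := pmk_surj δ
  obtain ⟨δ', rfl⟩ := pmk_surj δ'
  rw [regP_pmk] at hγ
  obtain ⟨h1, c, hc⟩ := C.lift_mem_Z hγ.1 h
  obtain ⟨h1', c', hc'⟩ := C.lift_mem_Z hγ.1 h'
  obtain ⟨t, b, ht, hb⟩ := C.unique hγ.2 h1 h1' (c := c' / c) (by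
    rw [hc, hc', ← mul_assoc, ← sc_mul, div_mul_cancel])
  refine ⟨pmk t, ?_, ?_⟩
  · change pmk t * pmk (Inc γ) = pmk (Inc γ) * pmk t
    rw [← pmk_mul, ← pmk_mul, mem_Z.mp ht]
  · rw [eq_mul_inv_iff_mul_eq]
    change pmk δ' * pmk (C.S t) = pmk t * pmk δ
    rw [← pmk_mul, hb, pmk_mul, pmk_sc, one_mul, pmk_mul]

/-- **The twisted centraliser** of `δ` is the centraliser of `γ` in `PGL₂(K)`. -/
theorem tw_centralizer {γ : PG K} (hγ : RegP γ) {δ : PG L} (h : C.pN δ = pI γ) (g : PG L) :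
    g⁻¹ * δ * C.pS g = δ ↔ ∃ k : PG K, k * γ = γ * k ∧ pI k = g := by
  constructor
  · intro hg
    -- `g` commutes with `N δ = γ`
    have h1 : g * pI γ = pI γ * g := by
      have h2 := C.pN_tw g δ
      rw [hg, h] at h2
      calc g * pI γ = g * (g⁻¹ * pI γ * g) := by rw [← h2]
        _ = pI γ * g := by group
    obtain ⟨γ, rfl⟩ := pmk_surj γ
    obtain ⟨δ, rfl⟩ := pmk_surj δ
    obtain ⟨g, rfl⟩ := pmk_surj g
    rw [regP_pmk] at hγ
    obtain ⟨hδ, -⟩ := C.lift_mem_Z hγ.1 h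
    have ht' : (Inc γ : GL (Fin 2) L).1.trace ≠ 0 := by
      rw [coe_Inc, trace_inc, Ne, map_eq_zero]
      exact hγ.1
    have hgZ : g ∈ Z (L := L) γ := mem_Z.mpr (commute_lift ht' h1)
    have h3 : C.pS (pmk g) = pmk g := by
      have h4 : pmk δ * C.pS (pmk g) = pmk δ * pmk g := by
        rw [← pmk_mul δ g, Z_comm hγ.2.not_isSc hδ hgZ, pmk_mul]
        have := congrArg (fun x => pmk g * x) hg
        simpa [mul_assoc] using this
      exact mul_left_cancel h4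
    obtain ⟨k, hk⟩ := C.exists_pI h3
    refine ⟨k, ?_, hk⟩
    apply pI_injective (L := L)
    rw [map_mul, map_mul, hk]
    exact h1
  · rintro ⟨k, hk, rfl⟩
    rw [pS_pI]
    obtain ⟨γ, rfl⟩ := pmk_surj γ
    obtain ⟨δ, rfl⟩ := pmk_surj δ
    obtain ⟨k, rfl⟩ := pmk_surj k
    rw [regP_pmk] at hγ
    obtain ⟨hδ, -⟩ := C.lift_mem_Z hγ.1 h
    have hkγ : k * γ = γ * k := commute_lift hγ.1 hk
    have hkZ : Inc k ∈ Z (L := L) γ := by
      rw [mem_Z, ← map_mul, hkγ, map_mul]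
    change (pmk (Inc k))⁻¹ * pmk δ * pmk (Inc k) = pmk δ
    rw [← pmk_inv, ← pmk_mul, ← pmk_mul, mul_assoc, Z_comm hγ.2.not_isSc hδ hkZ,
      inv_mul_cancel_left]

/-- **Existence**: `γ` is a norm iff `γ²/det γ` is a norm from `E_L^*`. -/
theorem exists_pN_iff {γ : GL (Fin 2) K} (hγ : RegP (pmk γ)) :
    (∃ δ : PG L, C.pN δ = pI (pmk γ)) ↔
      ∃ z ∈ Z (L := L) γ,
        C.N z = Inc (γ * γ) * (sc (Matrix.GeneralLinearGroup.det (Inc γ)))⁻¹ := by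
  rw [regP_pmk] at hγ
  rw [← C.exists_iff hγ.2.not_isSc]
  constructor
  · rintro ⟨δ, hδ⟩
    obtain ⟨δ, rfl⟩ := pmk_surj δ
    obtain ⟨h1, c, hc⟩ := C.lift_mem_Z hγ.1 hδ
    exact ⟨δ, h1, c, hc⟩
  · rintro ⟨δ, hδ, c, hc⟩
    exact ⟨pmk δ, pmk_eq_iff.mpr ⟨c, hc⟩⟩

end Cub

end Cubic

end Fermat.Agent.LT.D
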