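import Mathlib
import Fermat.Agent.LT.D.PGL
import Fermat.Agent.LT.D.Hasse

/-!
# Existence of `δ` with given norm: reduction to local conditions via the Hasse norm theorem
-/

set_option autoImplicit false

open Matrix Polynomial NumberField IsDedekindDomain Module
open Fermat.Agent.CFT

namespace Fermat.Agent.LT.D

section norm

theorem norm_three {E F : Type*} [Field E] [Field F] [Algebra E F] [IsGalois E F]
    (hd : finrank E F = 3) (τ : F ≃ₐ[E] F) (hτ : τ ≠ 1) (y : F) :
    algebraMap E F (Algebra.norm E y) = y * τ y * τ (τ y) := by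
  classical
  have hfd : FiniteDimensional E F := FiniteDimensional.of_finrank_pos (by rw [hd]; norm_num)
  rw [Algebra.norm_eq_prod_automorphisms]
  have hcard : Fintype.card (F ≃ₐ[E] F) = 3 := by
    rw [← Nat.card_eq_fintype_card, IsGalois.card_aut_eq_finrank, hd]
  have ho : orderOf τ = 3 := by
    have h1 : orderOf τ ∣ 3 := by rw [← hcard]; exact orderOf_dvd_card
    rcases (Nat.dvd_prime Nat.prime_three).mp h1 with h2 | h2
    · rw [orderOf_eq_one_iff] at h2
      exact absurd h2 hτ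
    · exact h2
  have h2 : τ * τ ≠ 1 := by
    intro h
    have h3 : orderOf τ ∣ 2 := orderOf_dvd_of_pow_eq_one (by rw [sq, h])
    rw [ho] at h3
    norm_num at h3
  have h3 : τ ≠ τ * τ := by
    intro h
    apply hτ
    have := congrArg (fun x => τ⁻¹ * x) h
    simpa using this.symm
  have huniv : (Finset.univ : Finset (F ≃ₐ[E] F)) = {1, τ, τ * τ} := by
    symm
    apply Finset.eq_univ_of_card
    rw [hcard, Finset.card_insert_of_notMem, Finset.card_insert_of_notMem,
      Finset.card_singleton]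
    · rw [Finset.mem_singleton]; exact h3
    · rw [Finset.mem_insert, Finset.mem_singleton]
      push Not
      exact ⟨hτ.symm, h2.symm⟩
  rw [huniv, Finset.prod_insert, Finset.prod_insert, Finset.prod_singleton]
  · simp only [AlgEquiv.one_apply, AlgEquiv.mul_apply, mul_assoc]
  · rw [Finset.mem_singleton]; exact h3
  · rw [Finset.mem_insert, Finset.mem_singleton]
    push Not
    exact ⟨hτ.symm, h2.symm⟩

end norm

section tower

set_option linter.unusedSectionVars false

variable {K L E F : Type*} [Field K] [NumberField K] [Field L] [NumberField L]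
  [Field E] [NumberField E] [Field F] [NumberField F] [Algebra K L] [Algebra K E] [Algebra L F]
  [Algebra E F] [Algebra K F] [IsScalarTower K L F] [IsScalarTower K E F]

theorem exists_tau {ζ : K} (hζ : IsPrimitiveRoot ζ 3) [IsGalois K L] (hKL : finrank K L = 3)
    (hE : finrank K E < 3) (hEF : finrank E F = 3) (σ : L ≃ₐ[K] L) (hσ : σ ≠ 1) :
    IsGalois E F ∧ ∃ τ : F ≃ₐ[E] F, τ ≠ 1 ∧
      ∀ x : L, τ (algebraMap L F x) = algebraMap L F (σ x) := by
  have hp : Nat.Prime 3 := Nat.prime_three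
  obtain ⟨a, α, σD, hD, hα, ha⟩ := exists_kummer hp hζ hKL
  have hζE : IsPrimitiveRoot (algebraMap K E ζ) 3 :=
    hζ.map_of_injective (algebraMap K E).injective
  have haE := pow_ne_of_finrank_lt (E := E) hp hE ha
  have hαF : (algebraMap L F α) ^ 3 = algebraMap E F (algebraMap K E a) := by
    rw [← map_pow, hD.pow_eq, ← IsScalarTower.algebraMap_apply, ← IsScalarTower.algebraMap_apply]
  obtain ⟨σ', hD'⟩ := Kummer.exists_data hp hζE haE hαF hEF
  refine ⟨hD'.galois, ?_⟩
  -- `L = K(α)`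
  have hfd : FiniteDimensional K L := FiniteDimensional.of_finrank_pos (by rw [hKL]; norm_num)
  have hmin := Kummer.minpoly_eq hp ha hD.pow_eq
  have hadj : Algebra.adjoin K {α} = ⊤ := by
    have h1 : IntermediateField.adjoin K {α} = ⊤ := by
      apply IntermediateField.eq_of_le_of_finrank_le le_top
      rw [IntermediateField.finrank_top', hKL,
        IntermediateField.adjoin.finrank (Algebra.IsIntegral.isIntegral α), hmin,
        natDegree_X_pow_sub_C]
    have h2 := IntermediateField.adjoin_simple_toSubalgebra_of_isAlgebraic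
      (Algebra.IsAlgebraic.isAlgebraic (R := K) α)
    rw [h1] at h2
    rw [← h2, IntermediateField.top_toSubalgebra]
  have hres : ∀ x : L, σ' (algebraMap L F x) = algebraMap L F (σD x) := by
    let f1 : L →ₐ[K] F := ((σ'.restrictScalars K : F ≃ₐ[K] F) : F →ₐ[K] F).comp
      (IsScalarTower.toAlgHom K L F)
    let f2 : L →ₐ[K] F := (IsScalarTower.toAlgHom K L F).comp (σD : L →ₐ[K] L)
    have h3 : f1 = f2 := by
      apply AlgHom.ext_of_adjoin_eq_top hadj
      intro x hx
      rw [Set.mem_singleton_iff] at hx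
      subst hx
      change σ' (algebraMap L F x) = algebraMap L F (σD x)
      rw [hD'.apply_root, hD.apply_root, map_mul, ← IsScalarTower.algebraMap_apply,
        ← IsScalarTower.algebraMap_apply]
    intro x
    exact DFunLike.congr_fun h3 x
  obtain ⟨i, -, rfl⟩ := hD.gen σ
  have hpow : ∀ (j : ℕ) (x : L), (σ' ^ j) (algebraMap L F x) = algebraMap L F ((σD ^ j) x) := by
    intro j
    induction j with
    | zero => intro x; simp
    | succ j ih => intro x; rw [pow_succ, pow_succ, AlgEquiv.mul_apply, AlgEquiv.mul_apply, hres, ih]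
  refine ⟨σ' ^ i, ?_, hpow i⟩
  intro h
  apply hσ
  ext x
  apply (algebraMap L F).injective
  rw [← hpow, h]
  rfl

variable (L) in
/-- The local condition at `v` for `γ ∈ GL₂(K)` with `s = (tr γ)²/det γ`. -/
def LocCond (v : HeightOneSpectrum (𝓞 K)) (s : K) : Prop :=
  (∃ w w' : HeightOneSpectrum (𝓞 L), w ≠ w' ∧ SUH.below K w = v ∧ SUH.below K w' = v) ∨
  ((∀ w : HeightOneSpectrum (𝓞 L), SUH.below K w = v →
    v.asIdeal.ramificationIdx' w.asIdeal = 1) ∧ v.valuation K s ≤ 1) ∨
  (∃ b : K, b ≠ 0 ∧ v.valuation K ((b ^ 3) ^ 2 - (s - 2) * b ^ 3 + 1) <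
    v.valuation K (9 * b ^ 3) ^ 2)

/-- valuations: unit case -/
theorem val_eq_one {Γ₀ : Type*} [LinearOrderedCommGroupWithZero Γ₀] (V : Valuation E Γ₀)
    {u s : E} (hu : u ^ 2 - s * u + 1 = 0) (hs : V s ≤ 1) : V u = 1 := by
  have h1 : V (1 + u ^ 2) = V (s * u) := by
    congr 1
    linear_combination hu
  rcases lt_trichotomy (V u) 1 with h | h | h
  · exfalso
    have h2 : V (u ^ 2) < V 1 := by
      rw [map_pow, map_one]
      exact pow_lt_one₀ zero_le h two_ne_zero
    rw [Valuation.map_add_eq_of_lt_left _ h2, map_one, map_mul] at h1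
    have h3 : V s * V u < 1 := lt_of_le_of_lt (mul_le_of_le_one_left' hs) h
    exact absurd h1 h3.ne'
  · exact h
  · exfalso
    have h2 : V 1 < V (u ^ 2) := by
      rw [map_pow, map_one]
      exact one_lt_pow₀ h two_ne_zero
    rw [Valuation.map_add_eq_of_lt_right _ h2, map_pow, map_mul, sq] at h1
    have hu0 : V u ≠ 0 := (zero_lt_one.trans h).ne'
    have h3 := mul_right_cancel₀ hu0 h1
    rw [h3] at h
    exact absurd h (not_lt.mpr hs)

theorem val_close {Γ₀ : Type*} [LinearOrderedCommGroupWithZero Γ₀] (V : Valuation E Γ₀)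
    (h9 : V 9 ≤ 1) {u s b : E} (hu : u ^ 2 - (s - 2) * u + 1 = 0) (hb : b ≠ 0)
    (hlt : V ((b ^ 3) ^ 2 - (s - 2) * b ^ 3 + 1) < V (9 * b ^ 3) ^ 2) :
    ∃ c : E, V (u - c ^ 3) < V (((3 : ℕ) : E) ^ 2 * u) := by
  have hu0 : u ≠ 0 := by
    rintro rfl
    simp at hu
  have h39 : ((3 : ℕ) : E) ^ 2 = 9 := by norm_num
  rw [h39]
  have hfac : (b ^ 3) ^ 2 - (s - 2) * b ^ 3 + 1 = (b ^ 3 - u) * (b ^ 3 - u⁻¹) := by
    have h1 : s - 2 = u + u⁻¹ := by
      field_simp
      linear_combination -hu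
    rw [h1]
    field_simp
    ring
  rw [hfac, map_mul, sq] at hlt
  have hVb : V (b ^ 3) ≠ 0 := (V.ne_zero_iff).mpr (pow_ne_zero _ hb)
  have h9b : V (9 * b ^ 3) ≤ V (b ^ 3) := by
    rw [map_mul]
    exact mul_le_of_le_one_left' h9
  have hcase : V (b ^ 3 - u) < V (9 * b ^ 3) ∨ V (b ^ 3 - u⁻¹) < V (9 * b ^ 3) := by
    by_contra h
    push Not at h
    exact absurd hlt (not_lt.mpr (mul_le_mul' h.1 h.2))
  rcases hcase with h | h
  · refine ⟨b, ?_⟩
    have h2 : V u = V (b ^ 3) := by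
      have h3 : V (b ^ 3 - u) < V (b ^ 3) := lt_of_lt_of_le h h9b
      have h4 := Valuation.map_sub_eq_of_lt_left V h3
      rw [sub_sub_cancel] at h4
      exact h4
    rw [Valuation.map_sub_swap, map_mul, h2, ← map_mul]
    exact h
  · refine ⟨b⁻¹, ?_⟩
    have h5 : u - b⁻¹ ^ 3 = (u * (b ^ 3)⁻¹) * (b ^ 3 - u⁻¹) := by
      field_simp
    rw [h5, map_mul, map_mul, map_inv₀, map_mul V 9 u]
    rw [map_mul] at h
    calc V u * (V (b ^ 3))⁻¹ * V (b ^ 3 - u⁻¹)
        < V u * (V (b ^ 3))⁻¹ * (V 9 * V (b ^ 3)) := by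
          apply mul_lt_mul_of_pos_left h
          apply mul_pos
          · exact zero_lt_iff.mpr (V.ne_zero_iff.mpr hu0)
          · exact inv_pos.mpr (zero_lt_iff.mpr hVb)
      _ = V 9 * V u := by
          rw [mul_assoc, mul_comm (V 9), inv_mul_cancel_left₀ hVb, mul_comm]

theorem exists_norm_of_loc {ζ : K} (hζ : IsPrimitiveRoot ζ 3) [IsGalois K L]
    (hKL : finrank K L = 3) (hE : finrank K E < 3) (hEF : finrank E F = 3) (u : Eˣ) (s : K)
    (hu : (u : E) ^ 2 - (algebraMap K E s - 2) * u + 1 = 0)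
    (hloc : ∀ v : HeightOneSpectrum (𝓞 K), LocCond L v s) :
    ∃ y : Fˣ, Units.map (Algebra.norm E : F →* E) y = u := by
  apply exists_norm_eq (K := K) (L := L) Nat.prime_three (by norm_num) hζ hKL hE hEF u
  intro P
  rcases hloc (SUH.below K P) with h | ⟨hur, hs⟩ | ⟨b, hb, hlt⟩
  · exact Or.inl h
  · refine Or.inr (Or.inl ⟨hur, ?_⟩)
    apply val_eq_one (P.valuation E) hu
    have h2 : (P.valuation E) (algebraMap K E s) ≤ 1 := by
      rw [← HeightOneSpectrum.valuation_liesOver E (SUH.below K P) P s]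
      exact pow_le_one₀ zero_le hs
    have h3 : (P.valuation E) (2 : E) ≤ 1 := by
      have h5 : P.valuation E (algebraMap (𝓞 E) E 2) ≤ 1 :=
        P.valuation_le_one (K := E) (2 : 𝓞 E)
      have h6 : algebraMap (𝓞 E) E 2 = 2 := map_ofNat _ 2
      rwa [h6] at h5
    exact (Valuation.map_sub_le _ h2 h3)
  · refine Or.inr (Or.inr ?_)
    have h9 : (P.valuation E) (9 : E) ≤ 1 := by
      have h5 : P.valuation E (algebraMap (𝓞 E) E 9) ≤ 1 :=
        P.valuation_le_one (K := E) (9 : 𝓞 E)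
      have h6 : algebraMap (𝓞 E) E 9 = 9 := map_ofNat _ 9
      rwa [h6] at h5
    apply val_close (P.valuation E) h9 hu (b := algebraMap K E b)
      (by rwa [Ne, map_eq_zero])
    have h4 := pow_lt_pow_left₀ hlt zero_le
      (n := (SUH.below K P).asIdeal.ramificationIdx' P.asIdeal)
      (Ideal.IsDedekindDomain.ramificationIdx'_ne_zero_of_liesOver P.asIdeal (SUH.below K P).ne_bot)
    rw [← pow_mul ((SUH.below K P).valuation K (9 * b ^ 3)), mul_comm 2, pow_mul,
      HeightOneSpectrum.valuation_liesOver E _ P,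
      HeightOneSpectrum.valuation_liesOver E _ P] at h4
    simpa only [map_add, map_sub, map_mul, map_pow, map_one, map_ofNat] using h4

end tower

section Classes

set_option linter.unusedSectionVars false

variable {K L : Type*} [Field K] [NumberField K] [Field L] [NumberField L] [Algebra K L]
  (C : Cub K L)

namespace Cub

theorem σ_ne_one : C.σ ≠ 1 := by
  intro h
  obtain ⟨x, hx⟩ := C.ne
  rw [h] at hx
  exact hx rfl

/-- `s = (tr γ)²/det γ` -/
noncomputable def sInv (γ : GL (Fin 2) K) : K :=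
  (γ : Matrix (Fin 2) (Fin 2) K).trace ^ 2 / (γ : Matrix (Fin 2) (Fin 2) K).det

theorem det_ne_zero' {F : Type*} [Field F] (γ : GL (Fin 2) F) :
    (γ : Matrix (Fin 2) (Fin 2) F).det ≠ 0 :=
  ((Matrix.isUnit_iff_isUnit_det _).mp γ.isUnit).ne_zero

/-- Cayley-Hamilton -/
theorem cayley {F : Type*} [CommRing F] (A : Matrix (Fin 2) (Fin 2) F) :
    A * A = A.trace • A - A.det • (1 : Matrix (Fin 2) (Fin 2) F) := by
  ext i j
  fin_cases i <;> fin_cases j <;>
    simp [Matrix.mul_apply, Fin.sum_univ_two, Matrix.trace_fin_two, Matrix.det_fin_two] <;> ring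

theorem s_aeval (g : L[X]) (A : Matrix (Fin 2) (Fin 2) L) :
    C.s (aeval A g) = aeval (C.s A) (g.map (C.σ : L →+* L)) := by
  induction g using Polynomial.induction_on' with
  | add p q hp hq => rw [map_add, map_add, hp, hq, Polynomial.map_add, map_add]
  | monomial n a =>
    rw [aeval_monomial, Polynomial.map_monomial, aeval_monomial, map_mul, map_pow]
    congr 1
    rw [Algebra.algebraMap_eq_smul_one, Algebra.algebraMap_eq_smul_one, s_smul, map_one]
    rfl

/-- From an element of norm `γ²/det γ` in matrix form to `Z γ`. -/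
theorem exists_z_of_matrix {γ : GL (Fin 2) K} {z : Matrix (Fin 2) (Fin 2) L}
    (hz : z * inc (L := L) (γ : Matrix (Fin 2) (Fin 2) K) =
      inc (L := L) (γ : Matrix (Fin 2) (Fin 2) K) * z)
    (hn : algebraMap K L (γ : Matrix (Fin 2) (Fin 2) K).det • C.nm z =
      inc (L := L) (γ : Matrix (Fin 2) (Fin 2) K) * inc (L := L) (γ : Matrix (Fin 2) (Fin 2) K)) :
    ∃ z ∈ Z (L := L) γ,
      C.N z = Inc (γ * γ) * (sc (Matrix.GeneralLinearGroup.det (Inc γ)))⁻¹ := by
  have hd0 : algebraMap K L (γ : Matrix (Fin 2) (Fin 2) K).det ≠ 0 := by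
    rw [Ne, map_eq_zero]
    exact det_ne_zero' γ
  have hdet : z.det ≠ 0 := by
    intro h0
    have h1 := congrArg Matrix.det hn
    rw [Matrix.det_smul, det_nm, h0, zero_mul, zero_mul, mul_zero, Matrix.det_mul, det_inc] at h1
    exact mul_ne_zero hd0 hd0 h1.symm
  refine ⟨Matrix.GeneralLinearGroup.mkOfDetNeZero z hdet, mem_Z.mpr (Units.ext hz), ?_⟩
  rw [eq_mul_inv_iff_mul_eq, ← sc_comm]
  apply Units.ext
  rw [sc_mul_coe, coe_N, map_mul, Units.val_mul, coe_Inc, ← hn]
  congr 1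
  exact det_inc _

/-- elliptic case -/
theorem exists_z_of_ell {ζ : K} (hζ : IsPrimitiveRoot ζ 3) [IsGalois K L]
    (hKL : finrank K L = 3) {γ : GL (Fin 2) K} (hE : Ell (γ : Matrix (Fin 2) (Fin 2) K))
    (hloc : ∀ v : HeightOneSpectrum (𝓞 K), LocCond L v (sInv γ)) :
    ∃ z ∈ Z (L := L) γ,
      C.N z = Inc (γ * γ) * (sc (Matrix.GeneralLinearGroup.det (Inc γ)))⁻¹ := by
  obtain ⟨t, ht⟩ : ∃ t, t = (γ : Matrix (Fin 2) (Fin 2) K).trace := ⟨_, rfl⟩
  obtain ⟨d, hd⟩ : ∃ d, d = (γ : Matrix (Fin 2) (Fin 2) K).det := ⟨_, rfl⟩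
  have hd0 : d ≠ 0 := by rw [hd]; exact det_ne_zero' γ
  let fK : K[X] := X ^ 2 - Polynomial.C t * X + Polynomial.C d
  let f : L[X] := X ^ 2 - Polynomial.C (algebraMap K L t) * X + Polynomial.C (algebraMap K L d)
  have hfK : fK.natDegree = 2 := by
    simp only [fK]
    compute_degree!
  have hf : f.natDegree = 2 := by
    simp only [f]
    compute_degree!
  have hfKm : fK.Monic := by
    simp only [fK]
    monicity!
  have hfm : f.Monic := by
    simp only [f]
    monicity!
  have hirrK : Irreducible fK := by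
    apply irreducible_of_degree_le_three_of_not_isRoot (by rw [hfK]; simp)
    intro x hx
    apply hE x
    rw [← ht, ← hd]
    simpa [fK, IsRoot.def] using hx
  have hirr : Irreducible f := by
    apply irreducible_of_degree_le_three_of_not_isRoot (by rw [hf]; simp)
    intro x hx
    apply C.ell_inc hE x
    rw [trace_inc, det_inc, ← ht, ← hd]
    simpa [f, IsRoot.def] using hx
  haveI : Fact (Irreducible f) := ⟨hirr⟩
  haveI hfin : FiniteDimensional L (AdjoinRoot f) := (AdjoinRoot.powerBasis hirr.ne_zero).finite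
  haveI : NumberField (AdjoinRoot f) := NumberField.of_module_finite L (AdjoinRoot f)
  obtain ⟨θ, hθdef⟩ : ∃ θ : AdjoinRoot f, θ = AdjoinRoot.root f := ⟨_, rfl⟩
  have hθ : θ ^ 2 - algebraMap K (AdjoinRoot f) t * θ + algebraMap K (AdjoinRoot f) d = 0 := by
    have h1 : aeval θ f = 0 := by
      rw [hθdef, AdjoinRoot.aeval_eq, AdjoinRoot.mk_self]
    simp only [f, map_add, map_sub, map_mul, map_pow, aeval_X, aeval_C,
      ← IsScalarTower.algebraMap_apply] at h1
    exact h1
  have hminK : minpoly K θ = fK := by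
    symm
    apply minpoly.eq_of_irreducible_of_monic hirrK _ hfKm
    simp only [fK, map_add, map_sub, map_mul, map_pow, aeval_X, aeval_C]
    exact hθ
  have hint : IsIntegral K θ := by
    by_contra h
    have := minpoly.eq_zero h
    rw [hminK] at this
    exact hirrK.ne_zero this
  let E : IntermediateField K (AdjoinRoot f) := IntermediateField.adjoin K {θ}
  have hKE : finrank K E = 2 := by
    rw [IntermediateField.adjoin.finrank hint, hminK, hfK]
  have hLF : finrank L (AdjoinRoot f) = 2 := by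
    rw [(AdjoinRoot.powerBasis hirr.ne_zero).finrank, AdjoinRoot.powerBasis_dim, hf]
  have hEF : finrank E (AdjoinRoot f) = 3 := by
    have h1 := finrank_mul_finrank K E (AdjoinRoot f)
    have h2 := finrank_mul_finrank K L (AdjoinRoot f)
    rw [hKE, ← h2, hKL, hLF] at h1
    omega
  let θE : E := ⟨θ, IntermediateField.mem_adjoin_simple_self K θ⟩
  have hθE : θE ^ 2 - algebraMap K E t * θE + algebraMap K E d = 0 := Subtype.ext hθ
  have hdE : algebraMap K E d ≠ 0 := by rwa [Ne, map_eq_zero]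
  have hθ0 : θE ≠ 0 := by
    intro h0
    rw [h0] at hθE
    apply hdE
    simpa using hθE
  let u : Eˣ := Units.mk0 (θE ^ 2 / algebraMap K E d) (div_ne_zero (pow_ne_zero _ hθ0) hdE)
  have hs : sInv γ = t ^ 2 / d := by rw [sInv, ← ht, ← hd]
  have hu : (u : E) ^ 2 - (algebraMap K E (sInv γ) - 2) * u + 1 = 0 := by
    rw [hs, Units.val_mk0, map_div₀, map_pow]
    field_simp
    linear_combination (θE ^ 2 + algebraMap K E t * θE + algebraMap K E d) * hθE
  obtain ⟨y, hy⟩ := exists_norm_of_loc (K := K) (L := L) (E := E) (F := AdjoinRoot f) hζ hKL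
    (by rw [hKE]; norm_num) hEF u (sInv γ) hu hloc
  obtain ⟨hgal, τ, hτ1, hτ⟩ := exists_tau (K := K) (L := L) (E := E) (F := AdjoinRoot f) hζ hKL
    (by rw [hKE]; norm_num) hEF C.σ C.σ_ne_one
  have hn := norm_three hEF τ hτ1 (y : AdjoinRoot f)
  have hy' : Algebra.norm E (y : AdjoinRoot f) = θE ^ 2 / algebraMap K E d :=
    congrArg Units.val hy
  rw [hy'] at hn
  have hτθ : τ θ = θ := τ.commutes θE
  obtain ⟨g, hg⟩ := AdjoinRoot.mk_surjective (y : AdjoinRoot f)
  have hτa : ∀ g : L[X], τ (aeval θ g) = aeval θ (g.map (C.σ : L →+* L)) := by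
    intro g
    induction g using Polynomial.induction_on' with
    | add p q hp hq => rw [map_add, map_add, hp, hq, Polynomial.map_add, map_add]
    | monomial n a =>
      rw [aeval_monomial, Polynomial.map_monomial, aeval_monomial, map_mul, map_pow, hτθ, hτ]
      rfl
  have hy2 : (y : AdjoinRoot f) = aeval θ g := by
    rw [hθdef, AdjoinRoot.aeval_eq, hg]
  have hn2 : algebraMap L (AdjoinRoot f) (algebraMap K L d) *
      aeval θ (g * g.map (C.σ : L →+* L) * (g.map (C.σ : L →+* L)).map (C.σ : L →+* L)) =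
        θ ^ 2 := by
    rw [map_mul, map_mul, ← hτa, ← hτa, ← hτa, ← hy2, ← hn, ← IsScalarTower.algebraMap_apply]
    have h3 : algebraMap E (AdjoinRoot f) (θE ^ 2 / algebraMap K E d) =
        θ ^ 2 / algebraMap K (AdjoinRoot f) d := by
      rw [map_div₀, map_pow, ← IsScalarTower.algebraMap_apply]
      rfl
    rw [h3, mul_div_cancel₀]
    rwa [Ne, map_eq_zero]
  have hdvd : f ∣ Polynomial.C (algebraMap K L d) *
      (g * g.map (C.σ : L →+* L) * (g.map (C.σ : L →+* L)).map (C.σ : L →+* L)) - X ^ 2 := by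
    rw [← AdjoinRoot.mk_eq_zero, ← AdjoinRoot.aeval_eq, ← hθdef, map_sub, map_mul, aeval_C, hn2,
      map_pow, aeval_X, sub_self]
  obtain ⟨Q, hQ⟩ := hdvd
  obtain ⟨Γ, hΓdef⟩ : ∃ Γ : Matrix (Fin 2) (Fin 2) L,
    Γ = inc (L := L) (γ : Matrix (Fin 2) (Fin 2) K) := ⟨_, rfl⟩
  have hΓ : aeval Γ f = 0 := by
    simp only [f, map_add, map_sub, map_mul, map_pow, aeval_X, aeval_C]
    rw [sq, cayley Γ, hΓdef, trace_inc, det_inc, ← ht, ← hd]
    simp only [Algebra.algebraMap_eq_smul_one, Matrix.smul_mul, one_mul, smul_assoc, one_smul]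
    abel
  have hΓQ := congrArg (aeval Γ) hQ
  rw [map_mul, hΓ, zero_mul, map_sub, map_mul, map_mul, map_mul, aeval_C, map_pow, aeval_X,
    sub_eq_zero] at hΓQ
  have hsΓ : C.s Γ = Γ := by rw [hΓdef, s_inc]
  have hs1 : aeval Γ (g.map (C.σ : L →+* L)) = C.s (aeval Γ g) := by
    rw [s_aeval, hsΓ]
  have hs2 : aeval Γ ((g.map (C.σ : L →+* L)).map (C.σ : L →+* L)) =
      C.s (C.s (aeval Γ g)) := by
    rw [← hs1, s_aeval, hsΓ]
  rw [hs1, hs2] at hΓQ
  apply C.exists_z_of_matrix (z := aeval Γ g)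
  · rw [← hΓdef]
    have h1 : aeval Γ (g * X) = aeval Γ (X * g) := by rw [mul_comm]
    rwa [map_mul, map_mul, aeval_X] at h1
  · rw [← hd, ← hΓdef, ← sq, ← hΓQ,
      Algebra.algebraMap_eq_smul_one (A := Matrix (Fin 2) (Fin 2) L) (algebraMap K L d),
      Matrix.smul_mul, one_mul]
    rfl

/-- split case -/
theorem exists_z_of_split {ζ : K} (hζ : IsPrimitiveRoot ζ 3) [IsGalois K L]
    (hKL : finrank K L = 3) {γ : GL (Fin 2) K} (hD : Disc (γ : Matrix (Fin 2) (Fin 2) K))
    (hE : ¬ Ell (γ : Matrix (Fin 2) (Fin 2) K))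
    (hloc : ∀ v : HeightOneSpectrum (𝓞 K), LocCond L v (sInv γ)) :
    ∃ z ∈ Z (L := L) γ,
      C.N z = Inc (γ * γ) * (sc (Matrix.GeneralLinearGroup.det (Inc γ)))⁻¹ := by
  unfold Ell at hE
  push Not at hE
  obtain ⟨a, ha⟩ := hE
  obtain ⟨b, hb⟩ : ∃ b, b = (γ : Matrix (Fin 2) (Fin 2) K).trace - a := ⟨_, rfl⟩
  have ht : (γ : Matrix (Fin 2) (Fin 2) K).trace = a + b := by rw [hb]; ring
  have hd : (γ : Matrix (Fin 2) (Fin 2) K).det = a * b := by
    rw [ht] at ha
    linear_combination ha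
  have hab : a - b ≠ 0 := by
    intro h
    apply hD
    rw [ht, hd]
    linear_combination (a - b) * h
  have hd0 : a * b ≠ 0 := by rw [← hd]; exact det_ne_zero' γ
  have ha0 : a ≠ 0 := left_ne_zero_of_mul hd0
  have hb0 : b ≠ 0 := right_ne_zero_of_mul hd0
  have hs : sInv γ = (a + b) ^ 2 / (a * b) := by rw [sInv, ht, hd]
  have hu : ((Units.mk0 (a / b) (div_ne_zero ha0 hb0) : Kˣ) : K) ^ 2 -
      (algebraMap K K (sInv γ) - 2) * (Units.mk0 (a / b) (div_ne_zero ha0 hb0) : Kˣ) + 1 = 0 := by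
    rw [hs, Units.val_mk0, Algebra.algebraMap_self, RingHom.id_apply]
    field_simp
    ring
  obtain ⟨y, hy⟩ := exists_norm_of_loc (K := K) (L := L) (E := K) (F := L) hζ hKL
    (by rw [finrank_self]; norm_num) hKL _ (sInv γ) hu hloc
  have hn := norm_three hKL C.σ C.σ_ne_one (y : L)
  have hy' : Algebra.norm K (y : L) = a / b := congrArg Units.val hy
  rw [hy'] at hn
  -- idempotents
  obtain ⟨Γ, hΓdef⟩ : ∃ Γ : Matrix (Fin 2) (Fin 2) L,
    Γ = inc (L := L) (γ : Matrix (Fin 2) (Fin 2) K) := ⟨_, rfl⟩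
  obtain ⟨A, hA⟩ : ∃ A, A = algebraMap K L a := ⟨_, rfl⟩
  obtain ⟨B, hB⟩ : ∃ B, B = algebraMap K L b := ⟨_, rfl⟩
  have hΓΓ : Γ * Γ = (A + B) • Γ - (A * B) • (1 : Matrix (Fin 2) (Fin 2) L) := by
    rw [cayley Γ, hΓdef, trace_inc, det_inc, ht, hd, map_add, map_mul, hA, hB]
  have hAB : A - B ≠ 0 := by
    rw [hA, hB, ← map_sub, Ne, map_eq_zero]
    exact hab
  obtain ⟨c, hc⟩ : ∃ c, c = (A - B)⁻¹ := ⟨_, rfl⟩
  have hc1 : c * (A - B) = 1 := by rw [hc, inv_mul_cancel₀ hAB]
  obtain ⟨p, hp⟩ : ∃ p, p = c • (Γ - B • (1 : Matrix (Fin 2) (Fin 2) L)) := ⟨_, rfl⟩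
  obtain ⟨q, hq⟩ : ∃ q, q = c • (A • (1 : Matrix (Fin 2) (Fin 2) L) - Γ) := ⟨_, rfl⟩
  have hΓpq : Γ = A • p + B • q := by
    rw [hp, hq]
    match_scalars
    · linear_combination -hc1
    · ring
  have hpp : p * p = p := by
    rw [hp]
    simp only [Matrix.smul_mul, Matrix.mul_smul, sub_mul, mul_sub, one_mul, mul_one, hΓΓ]
    match_scalars
    · linear_combination c * hc1
    · linear_combination -(c * B) * hc1
  have hqq : q * q = q := by
    rw [hq]
    simp only [Matrix.smul_mul, Matrix.mul_smul, sub_mul, mul_sub, one_mul, mul_one, hΓΓ]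
    match_scalars
    · linear_combination (c * A) * hc1
    · linear_combination -c * hc1
  have hpq : p * q = 0 := by
    rw [hp, hq]
    simp only [Matrix.smul_mul, Matrix.mul_smul, sub_mul, mul_sub, one_mul, mul_one, hΓΓ]
    match_scalars <;> ring
  have hqp : q * p = 0 := by
    rw [hp, hq]
    simp only [Matrix.smul_mul, Matrix.mul_smul, sub_mul, mul_sub, one_mul, mul_one, hΓΓ]
    match_scalars <;> ring
  have hsA : C.σ A = A := by rw [hA, AlgEquiv.commutes]
  have hsB : C.σ B = B := by rw [hB, AlgEquiv.commutes]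
  have hsc : C.σ c = c := by rw [hc, map_inv₀, map_sub, hsA, hsB]
  have hsΓ : C.s Γ = Γ := by rw [hΓdef, s_inc]
  have hsp : C.s p = p := by
    rw [hp, s_smul, map_sub, s_smul, map_one, hsc, hsΓ, hsB]
  have hsq : C.s q = q := by
    rw [hq, s_smul, map_sub, s_smul, map_one, hsc, hsΓ, hsA]
  have hmul : ∀ x x' y y' : L, (x • p + y • q) * (x' • p + y' • q) =
      (x * x') • p + (y * y') • q := by
    intro x x' y y'
    simp only [Matrix.smul_mul, Matrix.mul_smul, add_mul, mul_add, hpp, hqq, hpq, hqp]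
    match_scalars <;> ring
  have hs' : ∀ x y : L, C.s (x • p + y • q) = C.σ x • p + C.σ y • q := by
    intro x y
    rw [map_add, s_smul, s_smul, hsp, hsq]
  have hnm : C.nm ((y : L) • p + (y : L)⁻¹ • q) = (A / B) • p + (A / B)⁻¹ • q := by
    rw [nm, hs', hs', hmul, hmul, map_inv₀, map_inv₀, ← mul_inv, ← mul_inv, ← hn, map_div₀,
      ← hA, ← hB]
  have hA0 : A ≠ 0 := by rwa [hA, Ne, map_eq_zero]
  have hB0 : B ≠ 0 := by rwa [hB, Ne, map_eq_zero]
  apply C.exists_z_of_matrix (z := (y : L) • p + (y : L)⁻¹ • q)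
  · rw [← hΓdef]
    conv_lhs => rw [hΓpq]
    conv_rhs => rw [hΓpq]
    rw [hmul, hmul, mul_comm A, mul_comm B]
  · rw [← hΓdef, hnm, hd, map_mul, ← hA, ← hB, hΓpq, hmul, smul_add, smul_smul, smul_smul]
    congr 2
    · field_simp
    · field_simp

/-- **Existence of `δ`** under the local conditions. -/
theorem exists_pN_of_loc {ζ : K} (hζ : IsPrimitiveRoot ζ 3) [IsGalois K L]
    (hKL : finrank K L = 3) {γ : GL (Fin 2) K} (hγ : RegP (pmk γ))
    (hloc : ∀ v : HeightOneSpectrum (𝓞 K), LocCond L v (sInv γ)) :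
    ∃ δ : PG L, C.pN δ = pI (pmk γ) := by
  rw [C.exists_pN_iff hγ]
  rw [regP_pmk] at hγ
  by_cases hE : Ell (γ : Matrix (Fin 2) (Fin 2) K)
  · exact C.exists_z_of_ell hζ hKL hE hloc
  · exact C.exists_z_of_split hζ hKL hγ.2 hE hloc

/-- the local condition only depends on the class in `PGL₂(K)`. -/
theorem sInv_sc_mul (c : Kˣ) (γ : GL (Fin 2) K) : sInv (sc c * γ) = sInv γ := by
  have hc : (c : K) ≠ 0 := c.ne_zero
  have hd := det_ne_zero' γ
  rw [sInv, sInv, sc_mul_coe, Matrix.trace_smul, Matrix.det_smul, Fintype.card_fin, smul_eq_mul,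
    mul_pow]
  field_simp

end Cub

/-- A generator of the Galois group of a cyclic cubic extension. -/
theorem exists_cub {K L : Type*} [Field K] [Field L] [Algebra K L] [IsGalois K L]
    (hKL : finrank K L = 3) : Nonempty (Cub K L) := by
  have hfd : FiniteDimensional K L := FiniteDimensional.of_finrank_pos (by rw [hKL]; norm_num)
  have hcard : Nat.card (L ≃ₐ[K] L) = 3 := by rw [IsGalois.card_aut_eq_finrank, hKL]
  have : Fact (Nat.Prime 3) := ⟨Nat.prime_three⟩
  have hnt : Nontrivial (L ≃ₐ[K] L) := by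
    rw [← Finite.one_lt_card_iff_nontrivial, hcard]
    norm_num
  obtain ⟨σ, hσ⟩ := exists_ne (1 : L ≃ₐ[K] L)
  have hcube : σ ^ 3 = 1 := by rw [← hcard]; exact pow_card_eq_one'
  refine ⟨⟨σ, fun x => ?_, ?_, fun x hx => ?_⟩⟩
  · have h1 := DFunLike.congr_fun hcube x
    simpa [pow_succ, AlgEquiv.mul_apply] using h1
  · by_contra h
    push Not at h
    apply hσ
    ext x
    exact h x
  · have h2 : x ∈ (⊥ : IntermediateField K L) := by
      rw [IsGalois.mem_bot_iff_fixed]
      intro g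
      have h3 : (g : L ≃ₐ[K] L) ∈ Subgroup.zpowers σ := by
        have h4 := mem_zpowers_of_prime_card hcard hσ (g' := (g : L ≃ₐ[K] L))
        exact h4
      obtain ⟨n, hn⟩ := h3
      have h5 : σ ∈ MulAction.stabilizer (L ≃ₐ[K] L) x := hx
      have h6 := zpow_mem h5 n
      change (g : L ≃ₐ[K] L) • x = x
      simp only at hn
      rw [← hn]
      exact h6
    exact IntermediateField.mem_bot.mp h2

end Classes

end Fermat.Agent.LT.D
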