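import Fermat.Agent.LT.D.Hasse
import Fermat.Agent.LT.I8.NormGrp2

/-!
# Local norms from `E_P(a^{1/p})` at non-split places of a quadratic extension `E / K`

If `E / K` is quadratic, `P` is the only place above `v`, `a ∈ K` and `p` is odd, then every element
`y / ȳ`, `y ∈ E_P^*`, is a norm from `E_P(a^{1/p})`.
-/

set_option autoImplicit false
set_option linter.unusedSectionVars false

open NumberField IsDedekindDomain Module Polynomial
open Fermat.Agent.CFT Fermat.Agent.CFT.W Fermat.Agent.CFT.Embed Fermat.Agent.CFT.NormGrp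

namespace Fermat.Agent.LT.D

section alg

variable {L₀ L₁ : Type*} [Field L₀] [Field L₁] [Algebra L₀ L₁] {p : ℕ} {a : L₀}

/-- The norm maps local norm groups to local norm groups. -/
theorem norm_mem_normGrp (hp : p.Prime) [FiniteDimensional L₀ L₁]
    (ha : ∀ c : L₁, c ^ p ≠ algebraMap L₀ L₁ a) {x : L₁ˣ}
    (hx : x ∈ normGrp L₁ p (algebraMap L₀ L₁ a)) :
    Units.map (Algebra.norm L₀ : L₁ →* L₀) x ∈ normGrp L₀ p a := by
  have ha₀ : ∀ c : L₀, c ^ p ≠ a := fun c hc ↦ ha (algebraMap L₀ L₁ c) (by rw [← map_pow, hc])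
  have hirr : Fact (Irreducible (X ^ p - C (algebraMap L₀ L₁ a) : L₁[X])) :=
    ⟨X_pow_sub_C_irreducible_of_prime hp ha⟩
  have hirr₀ : Fact (Irreducible (X ^ p - C a : L₀[X])) :=
    ⟨X_pow_sub_C_irreducible_of_prime hp ha₀⟩
  rw [normGrp_eq_range' ha] at hx
  obtain ⟨z, rfl⟩ := hx
  rw [normGrp_eq_range' ha₀]
  let f : AdjoinRoot (X ^ p - C a : L₀[X]) →+*
      AdjoinRoot (X ^ p - C (algebraMap L₀ L₁ a) : L₁[X]) :=
    AdjoinRoot.lift (algebraMap L₀ _) (AdjoinRoot.root _) (by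
      rw [eval₂_sub, eval₂_X_pow, eval₂_C, Kummer.root_pow, sub_eq_zero]
      exact (IsScalarTower.algebraMap_apply L₀ L₁ _ a).symm)
  let _ : Algebra (AdjoinRoot (X ^ p - C a : L₀[X]))
      (AdjoinRoot (X ^ p - C (algebraMap L₀ L₁ a) : L₁[X])) := f.toAlgebra
  have hst : IsScalarTower L₀ (AdjoinRoot (X ^ p - C a : L₀[X]))
      (AdjoinRoot (X ^ p - C (algebraMap L₀ L₁ a) : L₁[X])) :=
    IsScalarTower.of_algebraMap_eq fun x ↦ by
      change _ = f (AdjoinRoot.of _ x)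
      exact (AdjoinRoot.lift_of _).symm
  have hfd₀ : FiniteDimensional L₀ (AdjoinRoot (X ^ p - C a : L₀[X])) :=
    FiniteDimensional.of_finrank_pos (by rw [Kummer.finrank_adjoinRoot hp]; exact hp.pos)
  have hfd₁ : FiniteDimensional L₁ (AdjoinRoot (X ^ p - C (algebraMap L₀ L₁ a) : L₁[X])) :=
    FiniteDimensional.of_finrank_pos (by rw [Kummer.finrank_adjoinRoot hp]; exact hp.pos)
  have hfd : FiniteDimensional L₀ (AdjoinRoot (X ^ p - C (algebraMap L₀ L₁ a) : L₁[X])) :=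
    FiniteDimensional.trans L₀ L₁ _
  have hfd' : FiniteDimensional (AdjoinRoot (X ^ p - C a : L₀[X]))
      (AdjoinRoot (X ^ p - C (algebraMap L₀ L₁ a) : L₁[X])) :=
    FiniteDimensional.right L₀ _ _
  have h1 := Algebra.norm_norm (R := L₀) (S := L₁)
    (a := (z : AdjoinRoot (X ^ p - C (algebraMap L₀ L₁ a) : L₁[X])))
  have h2 := Algebra.norm_norm (R := L₀) (S := AdjoinRoot (X ^ p - C a : L₀[X]))
    (a := (z : AdjoinRoot (X ^ p - C (algebraMap L₀ L₁ a) : L₁[X])))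
  refine ⟨Units.map (Algebra.norm (AdjoinRoot (X ^ p - C a : L₀[X]))) z, ?_⟩
  apply Units.ext
  exact h2.trans h1.symm

/-- every element of the big field is an element of the small field times a norm. -/
theorem exists_mul_mem_normGrp (hp : p.Prime) (hp2 : p ≠ 2) (hd : finrank L₀ L₁ = 2)
    (ha : ∀ c : L₁, c ^ p ≠ algebraMap L₀ L₁ a) (h0 : (normGrp L₀ p a).index = p)
    (h1 : (normGrp L₁ p (algebraMap L₀ L₁ a)).index = p) (y : L₁ˣ) :
    ∃ (k : L₀ˣ) (n : L₁ˣ), n ∈ normGrp L₁ p (algebraMap L₀ L₁ a) ∧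
      y = Units.map (algebraMap L₀ L₁ : L₀ →* L₁) k * n := by
  have hfd : FiniteDimensional L₀ L₁ := FiniteDimensional.of_finrank_pos (by rw [hd]; norm_num)
  have hne : normGrp L₀ p a ≠ ⊤ := by
    intro h
    rw [h, Subgroup.index_top] at h0
    exact hp.one_lt.ne h0
  obtain ⟨k, hk⟩ : ∃ k, k ∉ normGrp L₀ p a := by
    by_contra! h
    exact hne ((Subgroup.eq_top_iff' _).2 h)
  set N := normGrp L₁ p (algebraMap L₀ L₁ a) with hN
  have hkN : Units.map (algebraMap L₀ L₁ : L₀ →* L₁) k ∉ N := by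
    intro h
    have h2 := norm_mem_normGrp hp ha h
    have h3 : Units.map (Algebra.norm L₀ : L₁ →* L₀)
        (Units.map (algebraMap L₀ L₁ : L₀ →* L₁) k) = k ^ 2 := by
      apply Units.ext
      change Algebra.norm L₀ (algebraMap L₀ L₁ (k : L₀)) = _
      rw [Algebra.norm_algebraMap, hd]
      rfl
    rw [h3] at h2
    have h4 : k ^ p ∈ normGrp L₀ p a := pow_mem_normGrp hp k
    obtain ⟨m, hm⟩ := hp.odd_of_ne_two hp2
    have h5 : k = k ^ p * ((k ^ 2) ^ m)⁻¹ := by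
      rw [hm, pow_succ, pow_mul, mul_comm ((k ^ 2) ^ m) k, mul_inv_cancel_right]
    apply hk
    rw [h5]
    exact mul_mem h4 (inv_mem (pow_mem h2 m))
  have : Fact p.Prime := ⟨hp⟩
  have hcard : Nat.card (L₁ˣ ⧸ N) = p := h1
  have h6 : (QuotientGroup.mk (Units.map (algebraMap L₀ L₁ : L₀ →* L₁) k) : L₁ˣ ⧸ N) ≠ 1 := by
    rw [Ne, QuotientGroup.eq_one_iff]
    exact hkN
  have h7 := mem_zpowers_of_prime_card hcard (g' := (QuotientGroup.mk y : L₁ˣ ⧸ N)) h6
  rw [Subgroup.mem_zpowers_iff] at h7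
  obtain ⟨i, hi⟩ := h7
  rw [← QuotientGroup.mk_zpow, QuotientGroup.eq] at hi
  refine ⟨k ^ i, _, hi, ?_⟩
  rw [map_zpow, mul_inv_cancel_left]

/-- **Elements `y / τ y` are norms.** -/
theorem div_mem_normGrp (hp : p.Prime) (hp2 : p ≠ 2) (hd : finrank L₀ L₁ = 2)
    (ha : ∀ c : L₁, c ^ p ≠ algebraMap L₀ L₁ a) (h0 : (normGrp L₀ p a).index = p)
    (h1 : (normGrp L₁ p (algebraMap L₀ L₁ a)).index = p) (τ : L₁ ≃ₐ[L₀] L₁) (y : L₁ˣ) :
    y / Units.map (τ : L₁ →* L₁) y ∈ normGrp L₁ p (algebraMap L₀ L₁ a) := by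
  obtain ⟨k, n, hn, rfl⟩ := exists_mul_mem_normGrp hp hp2 hd ha h0 h1 y
  have h2 : Units.map (τ : L₁ →* L₁) (Units.map (algebraMap L₀ L₁ : L₀ →* L₁) k) =
      Units.map (algebraMap L₀ L₁ : L₀ →* L₁) k := by
    apply Units.ext
    exact τ.commutes _
  rw [map_mul, h2, mul_div_mul_left_eq_div]
  refine div_mem hn ?_
  have h3 := mem_normGrp_of_ringEquiv (τ : L₁ ≃+* L₁) hp hn
  have h4 : (τ : L₁ ≃+* L₁) (algebraMap L₀ L₁ a) = algebraMap L₀ L₁ a := τ.commutes a
  rw [h4] at h3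
  exact h3

end alg

section loc

variable {K E : Type*} [Field K] [NumberField K] [Field E] [NumberField E] [Algebra K E] {p : ℕ}

/-- the embedding of the base field below -/
noncomputable def LocEmb.res (K : Type*) [Field K] {E : Type*} [Field E] [Algebra K E]
    (e : LocEmb E) : LocEmb K := ⟨e.q, e.φ.comp (algebraMap K E)⟩

theorem res_L_le (e : LocEmb E) : locF e.q (e.φ.comp (algebraMap K E)) ≤ e.L := by
  change IntermediateField.adjoin ℚ_[e.q] (Set.range (e.φ.comp (algebraMap K E))) ≤ _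
  rw [IntermediateField.adjoin_le_iff]
  rintro _ ⟨x, rfl⟩
  exact mem_locF e.q e.φ _

variable {d : K} {δ : E} {τ : E ≃ₐ[K] E}

theorem exists_eq_add (hD : Kummer.Data K E 2 (-1) d δ τ) (hδ : δ ≠ 0) (y : E) :
    ∃ s t : K, y = algebraMap K E s + algebraMap K E t * δ := by
  have hζ2 : IsPrimitiveRoot (-1 : K) 2 := IsPrimitiveRoot.neg_one 0 (by norm_num)
  have hy : y ∈ Algebra.adjoin K {δ} := by
    rw [adjoin_eq_top hD Nat.prime_two hζ2 hδ]; exact Algebra.mem_top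
  induction hy using Algebra.adjoin_induction with
  | mem x hx =>
    rw [Set.mem_singleton_iff] at hx
    exact ⟨0, 1, by rw [hx, map_zero, map_one]; ring⟩
  | algebraMap r => exact ⟨r, 0, by rw [map_zero]; ring⟩
  | add x y _ _ hx hy =>
    obtain ⟨s, t, rfl⟩ := hx
    obtain ⟨s', t', rfl⟩ := hy
    exact ⟨s + s', t + t', by rw [map_add, map_add]; ring⟩
  | mul x y _ _ hx hy =>
    obtain ⟨s, t, rfl⟩ := hx
    obtain ⟨s', t', rfl⟩ := hy
    refine ⟨s * s' + t * t' * d, s * t' + t * s', ?_⟩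
    have h := hD.pow_eq
    rw [map_add, map_add, map_mul, map_mul, map_mul, map_mul, map_mul, ← h]
    ring

theorem exists_eq_add_loc (hD : Kummer.Data K E 2 (-1) d δ τ) (hδ : δ ≠ 0) {q : ℕ}
    [Fact q.Prime] (ψ : E →+* PadicAlgCl q) {z : PadicAlgCl q} (hz : z ∈ locF q ψ) :
    ∃ s t : locF q (ψ.comp (algebraMap K E)), z = (s : PadicAlgCl q) + (t : PadicAlgCl q) * ψ δ := by
  rw [← mem_span_iff] at hz
  induction hz using Submodule.span_induction with
  | mem z hz =>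
    obtain ⟨x, rfl⟩ := hz
    obtain ⟨s, t, rfl⟩ := exists_eq_add hD hδ x
    exact ⟨toLocF q _ s, toLocF q _ t, by rw [map_add, map_mul]; rfl⟩
  | zero => exact ⟨0, 0, by simp⟩
  | add x y _ _ hx hy =>
    obtain ⟨s, t, rfl⟩ := hx
    obtain ⟨s', t', rfl⟩ := hy
    exact ⟨s + s', t + t', by push_cast; ring⟩
  | smul r x _ hx =>
    obtain ⟨s, t, rfl⟩ := hx
    refine ⟨r • s, r • t, ?_⟩
    rw [smul_add, IntermediateField.coe_smul, IntermediateField.coe_smul, smul_mul_assoc]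

/-- **Local norms at non-split places**: if `d` is not a square in `K_v`, `E = K(√d)` and `p` is
odd, then all `y / τ y`, `y ∈ E^*`, are norms from `E_P(a^{1/p})`, `a ∈ K`. -/
theorem toU_div_mem_N (hp : p.Prime) (hp2 : p ≠ 2) {ζ : K} (hζ : IsPrimitiveRoot ζ p)
    (hD : Kummer.Data K E 2 (-1) d δ τ) (hδ : δ ≠ 0) (e : LocEmb E)
    (hns : ∀ c : (LocEmb.res K e).L, c ^ 2 ≠ (LocEmb.res K e).toL d) (a : K) (y : Eˣ) :
    e.toU (y / Units.map (τ : E →* E) y) ∈ e.N p (algebraMap K E a) := by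
  by_cases ha : ∃ c : e.L, c ^ p = e.toL (algebraMap K E a)
  · rw [LocEmb.N, normGrp_eq_top ha]; exact Subgroup.mem_top _
  push Not at ha
  set e₀ : LocEmb K := LocEmb.res K e with he₀
  let _ : Algebra e₀.L e.L :=
    (IntermediateField.inclusion (res_L_le (K := K) e)).toRingHom.toAlgebra
  have hmap : ∀ x : K, algebraMap e₀.L e.L (e₀.toL x) = e.toL (algebraMap K E x) := fun x ↦ rfl
  have hδd : (e.toL δ) ^ 2 = algebraMap e₀.L e.L (e₀.toL d) := by
    rw [← map_pow, hD.pow_eq, hmap]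
  have hζ2 : IsPrimitiveRoot (-1 : e₀.L) 2 := IsPrimitiveRoot.neg_one 0 (by norm_num)
  -- `E_P = K_v + K_v δ`
  have hspan' : ∀ y : e.L, ∃ s t : e₀.L, y = algebraMap e₀.L e.L s +
      algebraMap e₀.L e.L t * e.toL δ := by
    intro y
    obtain ⟨s, t, hst⟩ := exists_eq_add_loc hD hδ e.φ y.2
    exact ⟨s, t, Subtype.ext hst⟩
  have hfin : finrank e₀.L e.L = 2 := by
    let g : AdjoinRoot (X ^ 2 - C (e₀.toL d) : (e₀.L)[X]) →ₐ[e₀.L] e.L :=
      AdjoinRoot.liftAlgHom _ (Algebra.ofId e₀.L e.L) (e.toL δ) (by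
        simp only [eval₂_sub, eval₂_X_pow, eval₂_C, RingHom.coe_coe, Algebra.ofId_apply]
        rw [hδd, sub_self])
    have hirr : Fact (Irreducible (X ^ 2 - C (e₀.toL d) : (e₀.L)[X])) :=
      ⟨X_pow_sub_C_irreducible_of_prime Nat.prime_two hns⟩
    have hsurj : Function.Surjective g := by
      intro y
      obtain ⟨s, t, rfl⟩ := hspan' y
      refine ⟨algebraMap _ _ s + algebraMap _ _ t * AdjoinRoot.root _, ?_⟩
      rw [map_add, map_mul, AlgHom.commutes, AlgHom.commutes]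
      congr 2
      exact AdjoinRoot.liftAlgHom_root _ _ _ _
    rw [← Kummer.finrank_adjoinRoot (a := e₀.toL d) Nat.prime_two]
    exact (AlgEquiv.ofBijective g ⟨g.toRingHom.injective, hsurj⟩).toLinearEquiv.finrank_eq.symm
  obtain ⟨τ', hD'⟩ := Kummer.exists_data Nat.prime_two hζ2 hns hδd hfin
  have hτ : ∀ y : E, τ' (e.toL y) = e.toL (τ y) := by
    intro y
    obtain ⟨s, t, rfl⟩ := exists_eq_add hD hδ y
    rw [map_add, map_mul, ← hmap, ← hmap, map_add, map_mul, τ'.commutes, τ'.commutes,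
      hD'.apply_root, map_add, map_mul, τ.commutes, τ.commutes, hD.apply_root, map_add, map_mul,
      map_mul, hmap, hmap, map_neg, map_one, map_neg, map_one, map_neg, map_one]
  have ha₀ : ∀ c : e₀.L, c ^ p ≠ e₀.toL a := fun c hc ↦ ha (algebraMap e₀.L e.L c) (by
    rw [← map_pow, hc, hmap])
  have h3 := div_mem_normGrp (L₀ := e₀.L) (L₁ := e.L) (a := e₀.toL a) hp hp2 hfin ha
    (LT.I8.LocEmb.index_N e₀ hp hζ ha₀)
    (LT.I8.LocEmb.index_N e hp (hζ.map_of_injective (algebraMap K E).injective) ha) τ' (e.toU y)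
  have h4 : Units.map (τ' : e.L →* e.L) (e.toU y) = e.toU (Units.map (τ : E →* E) y) :=
    Units.ext (hτ y)
  rw [h4, ← _root_.map_div] at h3
  exact h3

end loc

end Fermat.Agent.LT.D
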